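import Fermat.Agent.Row24.Dict.Cover
import Fermat.Agent.Row24.Chart.Ops
import Fermat.Prelude.Def_AlgebraicGeometry_RelativePicardFunctor

/-!
# The dictionary between rigidified line bundles and glued modules

`Dictionary c ε R` is what the construction of the Jacobian uses of the identification of rigidified
line bundles on `C × Spec A` with rigid glued modules: a translation which preserves and reflects
isomorphism, is essentially surjective and commutes with base change.
-/

set_option autoImplicit false

universe u

open CategoryTheory CategoryTheory.Limits AlgebraicGeometry AlgebraicGeometry.RelPicard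
  NeronModelInfra

noncomputable section

namespace Fermat.Agent.Row24.Dict

open Chart

variable {k : Type u} [Field k] {C : Scheme.{u}} (c : C ⟶ Spec (CommRingCat.of k))
  (ε : SchemeHomOver (𝟙 (Spec (CommRingCat.of k))) c)

/-- Translation of rigidified bundles on `C × Spec A` into glued modules. -/
structure Dictionary (R : CurveRings k) where
  /-- the glued modules of a rigidified bundle -/
  glued : ∀ (A : Type u) [CommRing A] [Algebra k A],
    RigidifiedLineBundle c ε (affStr k A) → Glued R A
  rigid : ∀ (A : Type u) [CommRing A] [Algebra k A] (M : RigidifiedLineBundle c ε (affStr k A)),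
    (glued A M).Rigid
  iso_iff : ∀ (A : Type u) [CommRing A] [Algebra k A]
    (M M' : RigidifiedLineBundle c ε (affStr k A)),
    Nonempty (Glued.Iso (glued A M) (glued A M')) ↔ Nonempty (M.L ≅ M'.L)
  exists_bundle : ∀ (A : Type u) [CommRing A] [Algebra k A] (N : Glued R A), N.Rigid →
    ∃ M : RigidifiedLineBundle c ε (affStr k A), Nonempty (Glued.Iso (glued A M) N)
  nonempty_hom : ∀ (A : Type u) [CommRing A] [Algebra k A] (A' : Type u) [CommRing A']
    [Algebra k A'] (φ : A →ₐ[k] A') (M : RigidifiedLineBundle c ε (affStr k A)),
    Nonempty (Glued.Hom φ (glued A M) (glued A' (M.pullbackAlong (affHom φ))))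
  unit_iso : ∀ (A : Type u) [CommRing A] [Algebra k A],
    Nonempty (Glued.Iso (glued A (RigidifiedLineBundle.unit (affStr k A))) (Glued.trivial R A))

variable {c ε}

/-- A presentation of a test object as a spectrum of an algebra. -/
def toAff (A : Type u) [CommRing A] [Algebra k A]
    {q : Spec (CommRingCat.of A) ⟶ Spec (CommRingCat.of k)} (h : affStr k A = q) :
    SchemeHomOver (affStr k A) q :=
  ⟨𝟙 _, (Category.id_comp _).trans h.symm⟩

/-- Every morphism to the base comes from an algebra structure. -/
theorem exists_affStr_eq {A : Type u} [CommRing A]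
    (q : Spec (CommRingCat.of A) ⟶ Spec (CommRingCat.of k)) :
    ∃ inst : Algebra k A, @affStr k _ A _ inst = q := by
  refine ⟨(Spec.preimage q).hom.toAlgebra, ?_⟩
  show Spec.map (CommRingCat.ofHom (Spec.preimage q).hom) = q
  exact Spec.map_preimage q

end Fermat.Agent.Row24.Dict

end
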