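import Mathlib
import Fermat.Agent.Row24.Chart.Data

/-!
# Two-chart presentations of a scheme by the rings of a curve over an algebra

`TwoCharts C A X` records that `X` (in practice the curve times `Spec A`) is covered by two affine
opens with rings `C.R1 A`, `C.R2 A`, meeting in the basic open where the coordinate is invertible.
-/

set_option autoImplicit false

universe u

open CategoryTheory CategoryTheory.Limits AlgebraicGeometry TopologicalSpace

namespace Fermat.Agent.Row24.Dict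

open Chart

variable {k : Type u} [Field k]

/-- A scheme with two affine charts whose rings are those of the curve over `A`. -/
structure TwoCharts (C : CurveRings k) (A : Type u) [CommRing A] [Algebra k A]
    (X : Scheme.{u}) where
  /-- the first chart -/
  V1 : X.Opens
  /-- the second chart -/
  V2 : X.Opens
  isAffine1 : IsAffineOpen V1
  isAffine2 : IsAffineOpen V2
  sup_eq : V1 ⊔ V2 = ⊤
  /-- functions on the overlap -/
  e : C.R12 A ≃+* Γ(X, V1 ⊓ V2)
  /-- functions on the first chart -/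
  e1 : C.R1 A ≃+* Γ(X, V1)
  /-- functions on the second chart -/
  e2 : C.R2 A ≃+* Γ(X, V2)
  res1 : ∀ r : C.R1 A,
    X.presheaf.map (homOfLE (inf_le_left : V1 ⊓ V2 ≤ V1)).op (e1 r) = e (r : C.R12 A)
  res2 : ∀ r : C.R2 A,
    X.presheaf.map (homOfLE (inf_le_right : V1 ⊓ V2 ≤ V2)).op (e2 r) = e (r : C.R12 A)
  basic1 : X.basicOpen (e1 ⟨C.xA A, C.xA_mem⟩) = V1 ⊓ V2
  basic2 : X.basicOpen (e2 ⟨C.yA A, C.yA_mem⟩) = V1 ⊓ V2

/-- Compatibility of a morphism with the charts and with a map of algebras. -/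
structure Compat {C : CurveRings k} {A : Type u} [CommRing A] [Algebra k A] {A' : Type u}
    [CommRing A'] [Algebra k A'] {X X' : Scheme.{u}} (T : TwoCharts C A X)
    (T' : TwoCharts C A' X') (φ : A →ₐ[k] A') (f : X' ⟶ X) : Prop where
  le1 : T'.V1 ≤ f ⁻¹ᵁ T.V1
  le2 : T'.V2 ≤ f ⁻¹ᵁ T.V2
  app : ∀ (h : T'.V1 ⊓ T'.V2 ≤ f ⁻¹ᵁ (T.V1 ⊓ T.V2)) (r : C.R12 A),
    f.appLE (T.V1 ⊓ T.V2) (T'.V1 ⊓ T'.V2) h (T.e r) = T'.e (C.mapR φ r)

theorem Compat.le12 {C : CurveRings k} {A : Type u} [CommRing A] [Algebra k A] {A' : Type u}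
    [CommRing A'] [Algebra k A'] {X X' : Scheme.{u}} {T : TwoCharts C A X}
    {T' : TwoCharts C A' X'} {φ : A →ₐ[k] A'} {f : X' ⟶ X} (h : Compat T T' φ f) :
    T'.V1 ⊓ T'.V2 ≤ f ⁻¹ᵁ (T.V1 ⊓ T.V2) :=
  fun _ hy => ⟨h.le1 hy.1, h.le2 hy.2⟩

end Fermat.Agent.Row24.Dict
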