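import Fermat.Agent.Row24.Dict.Cover
import Fermat.Agent.Row24.Dict.Charts

/-!
# The charts of `C × Spec A` from a model of the rings of the curve

`ChartModel c R` identifies the rings `R` with the sections of `C` over two affine opens.  It gives
the two charts of `C × Spec A`, compatibly with base change and with the base point.
-/

set_option autoImplicit false

universe u

open CategoryTheory CategoryTheory.Limits AlgebraicGeometry TopologicalSpace
open NeronModelInfra AlgebraicGeometry.RelPicard
open scoped TensorProduct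

noncomputable section

namespace Fermat.Agent.Row24.Dict

open Curve Chart

variable {k : Type u} [Field k] {X₀ : Scheme.{u}}

/-- The rings of a curve as sections over two affine opens. -/
structure ChartModel (c : X₀ ⟶ Spec (CommRingCat.of k)) (R : CurveRings k) where
  /-- the complement of the point -/
  U1 : X₀.Opens
  /-- the chart of the point -/
  U2 : X₀.Opens
  isAffine1 : IsAffineOpen U1
  isAffine2 : IsAffineOpen U2
  sup_eq : U1 ⊔ U2 = ⊤
  /-- sections over the overlap -/
  hom : R.B12 →+* Γ(X₀, U1 ⊓ U2)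
  /-- sections over the first open -/
  hom1 : R.B1 →+* Γ(X₀, U1)
  /-- sections over the second open -/
  hom2 : R.B2 →+* Γ(X₀, U2)
  bijective : Function.Bijective hom
  bijective1 : Function.Bijective hom1
  bijective2 : Function.Bijective hom2
  const : ∀ a : k, hom (algebraMap k R.B12 a) = constHom c (U1 ⊓ U2) a
  const1 : ∀ a : k, hom1 (algebraMap k R.B1 a) = constHom c U1 a
  const2 : ∀ a : k, hom2 (algebraMap k R.B2 a) = constHom c U2 a
  res1 : ∀ b : R.B1,
    X₀.presheaf.map (homOfLE (inf_le_left : U1 ⊓ U2 ≤ U1)).op (hom1 b) = hom (b : R.B12)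
  res2 : ∀ b : R.B2,
    X₀.presheaf.map (homOfLE (inf_le_right : U1 ⊓ U2 ≤ U2)).op (hom2 b) = hom (b : R.B12)
  basic1 : X₀.basicOpen (hom1 ⟨R.x, R.x_mem⟩) = U1 ⊓ U2
  basic2 : X₀.basicOpen (hom2 ⟨R.y, R.y_mem⟩) = U1 ⊓ U2

namespace ChartModel

variable {c : X₀ ⟶ Spec (CommRingCat.of k)} {R : CurveRings k} (m : ChartModel c R)

/-- The base point lies in the second open, where it evaluates as `R.aug`. -/
structure Based (ε : SchemeHomOver (𝟙 (Spec (CommRingCat.of k))) c) : Prop where
  preimage : ε.1 ⁻¹ᵁ m.U2 = ⊤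
  aug : ∀ b : R.B2, ε.1.appLE m.U2 ⊤ preimage.ge (m.hom2 b) =
    (Scheme.ΓSpecIso (CommRingCat.of k)).inv (R.aug b)

theorem isAffine12 : IsAffineOpen (m.U1 ⊓ m.U2) := m.basic1 ▸ m.isAffine1.basicOpen _

variable (A : Type u) [CommRing A] [Algebra k A]

/-- **The two charts of `C × Spec A`.** -/
def twoCharts : TwoCharts R A (pullback c (affStr k A)) where
  V1 := chartOpen c A m.U1
  V2 := chartOpen c A m.U2
  isAffine1 := isAffineOpen_chartOpen c A m.isAffine1
  isAffine2 := isAffineOpen_chartOpen c A m.isAffine2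
  sup_eq := chartOpen_sup_eq_top c A m.sup_eq
  e := chartEquiv c A m.hom m.const m.isAffine12 m.bijective
  e1 := (R.subEquiv A R.B1).symm.toRingEquiv.trans
    (chartEquiv c A m.hom1 m.const1 m.isAffine1 m.bijective1)
  e2 := (R.subEquiv A R.B2).symm.toRingEquiv.trans
    (chartEquiv c A m.hom2 m.const2 m.isAffine2 m.bijective2)
  res1 r := by
    obtain ⟨z, rfl⟩ := (R.subEquiv A R.B1).surjective r
    show (pullback c (affStr k A)).presheaf.map _
        (chartHom c A m.hom1 m.const1 ((R.subEquiv A R.B1).symm (R.subEquiv A R.B1 z))) =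
      chartHom c A m.hom m.const _
    rw [AlgEquiv.symm_apply_apply]
    exact map_chartHom c A m.hom1 m.const1 m.hom m.const inf_le_left R.B1.val m.res1 z
  res2 r := by
    obtain ⟨z, rfl⟩ := (R.subEquiv A R.B2).surjective r
    show (pullback c (affStr k A)).presheaf.map _
        (chartHom c A m.hom2 m.const2 ((R.subEquiv A R.B2).symm (R.subEquiv A R.B2 z))) =
      chartHom c A m.hom m.const _
    rw [AlgEquiv.symm_apply_apply]
    exact map_chartHom c A m.hom2 m.const2 m.hom m.const inf_le_right R.B2.val m.res2 z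
  basic1 := by
    show (pullback c (affStr k A)).basicOpen (chartHom c A m.hom1 m.const1
      ((R.subEquiv A R.B1).symm ⟨R.xA A, R.xA_mem⟩)) = _
    rw [show (R.subEquiv A R.B1).symm ⟨R.xA A, R.xA_mem⟩ = 1 ⊗ₜ ⟨R.x, R.x_mem⟩ from
      (R.subEquiv A R.B1).symm_apply_eq.2 (Subtype.ext rfl), chartHom_right]
    show (pullback c (affStr k A)).basicOpen ((pullback.fst c (affStr k A)).appLE m.U1
      (chartOpen c A m.U1) le_rfl (m.hom1 ⟨R.x, R.x_mem⟩)) = _
    rw [Scheme.basicOpen_appLE, m.basic1]
    exact inf_eq_right.2 (chartOpen_mono c A inf_le_left)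
  basic2 := by
    show (pullback c (affStr k A)).basicOpen (chartHom c A m.hom2 m.const2
      ((R.subEquiv A R.B2).symm ⟨R.yA A, R.yA_mem⟩)) = _
    rw [show (R.subEquiv A R.B2).symm ⟨R.yA A, R.yA_mem⟩ = 1 ⊗ₜ ⟨R.y, R.y_mem⟩ from
      (R.subEquiv A R.B2).symm_apply_eq.2 (Subtype.ext rfl), chartHom_right]
    show (pullback c (affStr k A)).basicOpen ((pullback.fst c (affStr k A)).appLE m.U2
      (chartOpen c A m.U2) le_rfl (m.hom2 ⟨R.y, R.y_mem⟩)) = _
    rw [Scheme.basicOpen_appLE, m.basic2]
    exact inf_eq_right.2 (chartOpen_mono c A inf_le_right)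

variable {A} {A' : Type u} [CommRing A'] [Algebra k A']

/-- **Compatibility of the charts with base change.** -/
theorem compat_baseChange (φ : A →ₐ[k] A') :
    Compat (m.twoCharts A) (m.twoCharts A') φ (baseChangeSnd c (affHom φ)) where
  le1 := chartOpen_le_baseChange c φ m.U1
  le2 := chartOpen_le_baseChange c φ m.U2
  app _ r := baseChange_chartHom c m.hom m.const φ r

variable {m} {ε : SchemeHomOver (𝟙 (Spec (CommRingCat.of k))) c} (hb : m.Based ε)

include hb in
theorem rigSection_preimage_V2 :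
    rigSection c (affStr k A) ε ⁻¹ᵁ (m.twoCharts A).V2 = ⊤ :=
  rigSection_preimage c A ε hb.preimage

include hb in
/-- **Compatibility of the charts with the base point.** -/
theorem rigSection_e2 (h : ⊤ ≤ rigSection c (affStr k A) ε ⁻¹ᵁ (m.twoCharts A).V2)
    (r : R.R2 A) :
    (rigSection c (affStr k A) ε).appLE (m.twoCharts A).V2 ⊤ h ((m.twoCharts A).e2 r) =
      (Scheme.ΓSpecIso (CommRingCat.of A)).inv (R.augA A r) :=
  rigSection_chartHom c A m.hom2 m.const2 ε hb.preimage R.aug hb.aug
    ((R.subEquiv A R.B2).symm r)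

end ChartModel

end Fermat.Agent.Row24.Dict

end
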