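import Mathlib
import Fermat.Agent.Row24.AffineOpenSections

/-!
# Sections of quasi-coherent modules on basic opens of an affine open

Only quasi-coherence of the restriction to the affine open is assumed.
-/

universe u

open CategoryTheory CategoryTheory.Limits AlgebraicGeometry TopologicalSpace

namespace Fermat.Agent.Row24

variable {X : Scheme.{u}} {U : X.Opens} (hU : IsAffineOpen U) (M : X.Modules)
  [(M.restrict hU.fromSpec).IsQuasicoherent]

include hU in
/-- Multiplying by a power of `g` extends a section over `D(g)` to the affine open. -/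
theorem exists_pow_smul_eq_res (g : Γ(X, U)) (s : Γ(M, X.basicOpen g)) :
    ∃ (n : ℕ) (t : Γ(M, U)), M.presheaf.map (homOfLE (X.basicOpen_le g)).op t =
      (X.presheaf.map (homOfLE (X.basicOpen_le g)).op (g ^ n)) • s := by
  set M' := M.restrict hU.fromSpec
  have hq : M'.IsQuasicoherent := inferInstance
  have hloc := (isIso_fromTildeΓ_iff_isLocalizing M').mp
    (Scheme.Modules.isIso_fromTildeΓ_of_isQuasicoherent M') g
  let e₀ := gammaRestrictEquiv hU M
  have hD : hU.fromSpec ''ᵁ PrimeSpectrum.basicOpen g = X.basicOpen g :=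
    hU.fromSpec_image_basicOpen g
  let s' : Γ(M', PrimeSpectrum.basicOpen g) :=
    (M.restrictAppIso hU.fromSpec _).inv (M.presheaf.map (eqToHom hD).op s)
  obtain ⟨⟨t', ⟨_, n, rfl⟩⟩, ht⟩ := hloc.surj s'
  refine ⟨n, e₀ t', ?_⟩
  have ht' : (g ^ n) • s' = M'.presheaf.map (homOfLE le_top).op (t' : Γ(M', ⊤)) := ht
  rw [Scheme.Modules.smul_Spec_def] at ht'
  have h2 := congrArg (M.restrictAppIso hU.fromSpec (PrimeSpectrum.basicOpen g)).hom ht'
  rw [Scheme.Modules.smul_restrictAppIso_hom_apply] at h2
  simp only [s', Iso.inv_hom_id_apply] at h2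
  have h3 := congrArg (M.presheaf.map (eqToHom hD.symm).op) h2
  rw [Scheme.Modules.map_smul, ← M.presheaf.map_comp_apply, ← op_comp, eqToHom_trans,
    eqToHom_refl, op_id, CategoryTheory.Functor.map_id] at h3
  change M.presheaf.map _ (M.presheaf.map (eqToHom (fromSpec_image_top_eq hU).symm).op
    ((M.restrictAppIso hU.fromSpec ⊤).hom t')) = _
  refine Eq.trans ?_ (Eq.trans h3.symm ?_)
  · change _ = M.presheaf.map (eqToHom hD.symm).op (M.presheaf.map
      (homOfLE (Scheme.Hom.image_mono _ le_top)).op ((M.restrictAppIso hU.fromSpec ⊤).hom t'))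
    rw [← M.presheaf.map_comp_apply, ← M.presheaf.map_comp_apply]
    rfl
  · congr 1
    rw [← CommRingCat.comp_apply ((Spec Γ(X, U)).presheaf.map _),
      Scheme.Hom.appIso_inv_naturality, CommRingCat.comp_apply, fromSpec_appIso_top_inv hU,
      ← CommRingCat.comp_apply, ← CommRingCat.comp_apply, ← Functor.map_comp, ← Functor.map_comp]
    rfl

include hU in
/-- A section over an affine open which vanishes on `D(g)` is killed by a power of `g`. -/
theorem exists_pow_smul_eq_zero (g : Γ(X, U)) (t : Γ(M, U))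
    (ht : M.presheaf.map (homOfLE (X.basicOpen_le g)).op t = 0) :
    ∃ n : ℕ, g ^ n • t = 0 := by
  set M' := M.restrict hU.fromSpec
  have hq : M'.IsQuasicoherent := inferInstance
  have hloc := (isIso_fromTildeΓ_iff_isLocalizing M').mp
    (Scheme.Modules.isIso_fromTildeΓ_of_isQuasicoherent M') g
  set t' := (gammaRestrictEquiv hU M).symm t with ht'
  have h0 : ((modulesSpecToSheaf.obj M').obj.map
      (PrimeSpectrum.basicOpen g).leTop.op).hom t' = 0 := by
    change M'.presheaf.map (homOfLE le_top).op (t' : Γ(M', ⊤)) = 0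
    apply (ConcreteCategory.bijective_of_isIso
      (M.restrictAppIso hU.fromSpec (PrimeSpectrum.basicOpen g)).hom).1
    rw [map_zero, Scheme.Modules.map_restrictAppIso_hom_apply]
    have hD : hU.fromSpec ''ᵁ PrimeSpectrum.basicOpen g = X.basicOpen g :=
      hU.fromSpec_image_basicOpen g
    have h2 := congrArg (M.presheaf.map (eqToHom hD).op) ht
    rw [← (gammaRestrictEquiv hU M).apply_symm_apply t, map_zero] at h2
    change M.presheaf.map _ (M.presheaf.map _ (M.presheaf.map
      (eqToHom (fromSpec_image_top_eq hU).symm).op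
        ((M.restrictAppIso hU.fromSpec ⊤).hom t'))) = 0 at h2
    rw [← M.presheaf.map_comp_apply, ← M.presheaf.map_comp_apply] at h2
    exact h2
  obtain ⟨⟨_, n, rfl⟩, hn⟩ := (IsLocalizedModule.eq_zero_iff (Submonoid.powers g) _).mp h0
  refine ⟨n, ?_⟩
  have hn' : (g ^ n) • t' = 0 := hn
  have h3 := congrArg (gammaRestrictEquiv hU M) hn'
  rwa [map_smul, map_zero, ht', LinearEquiv.apply_symm_apply] at h3

end Fermat.Agent.Row24
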