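import Mathlib
import Fermat.Agent.Row24.Dict.Localize

/-!
# Pulling back sections, and base change of sections over affine opens

For `f : X' ⟶ X` the adjunction unit gives `Γ(M, U) → Γ(f^* M, U')`; for an invertible `M` and
affine opens it exhibits the target as the base change of the source.
-/

universe u

open CategoryTheory CategoryTheory.Limits AlgebraicGeometry TopologicalSpace TensorProduct

namespace Fermat.Agent.Row24

variable {X X' : Scheme.{u}} (f : X' ⟶ X) (M : X.Modules)

/-- Inverse image of a section. -/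
noncomputable def pullSection {U : X.Opens} {U' : X'.Opens} (h : U' ≤ f ⁻¹ᵁ U) :
    Γ(M, U) →+ Γ((Scheme.Modules.pullback f).obj M, U') :=
  ((Scheme.Modules.Hom.app ((Scheme.Modules.pullbackPushforwardAdjunction f).unit.app M) U) ≫
    ((Scheme.Modules.pullback f).obj M).presheaf.map (homOfLE h).op).hom

theorem pullSection_smul {U : X.Opens} {U' : X'.Opens} (h : U' ≤ f ⁻¹ᵁ U) (r : Γ(X, U))
    (m : Γ(M, U)) :
    pullSection f M h (r • m) = f.appLE U U' h r • pullSection f M h m := by
  change ((Scheme.Modules.pullback f).obj M).presheaf.map (homOfLE h).op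
    ((Scheme.Modules.Hom.app ((Scheme.Modules.pullbackPushforwardAdjunction f).unit.app M) U)
      (r • m)) = _
  rw [Scheme.Modules.Hom.app_smul]
  exact ((Scheme.Modules.pullback f).obj M).map_smul (homOfLE h) (f.app U r) _

theorem pullSection_res {U V : X.Opens} {U' V' : X'.Opens} (h : U' ≤ f ⁻¹ᵁ U) (hV : V ≤ U)
    (hV' : V' ≤ U') (h' : V' ≤ f ⁻¹ᵁ V) (m : Γ(M, U)) :
    ((Scheme.Modules.pullback f).obj M).presheaf.map (homOfLE hV').op (pullSection f M h m) =
      pullSection f M h' (M.presheaf.map (homOfLE hV).op m) := by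
  change ((Scheme.Modules.pullback f).obj M).presheaf.map (homOfLE hV').op
      (((Scheme.Modules.pullback f).obj M).presheaf.map (homOfLE h).op
        (Scheme.Modules.Hom.app ((Scheme.Modules.pullbackPushforwardAdjunction f).unit.app M) U m)) =
    ((Scheme.Modules.pullback f).obj M).presheaf.map (homOfLE h').op
      (Scheme.Modules.Hom.app ((Scheme.Modules.pullbackPushforwardAdjunction f).unit.app M) V
        (M.presheaf.map (homOfLE hV).op m))
  have hn := ConcreteCategory.congr_hom
    (((Scheme.Modules.pullbackPushforwardAdjunction f).unit.app M).mapPresheaf.naturality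
      (homOfLE hV).op) m
  simp only [ConcreteCategory.comp_apply, Scheme.Modules.mapPresheaf_app] at hn
  refine Eq.trans ?_ (congrArg
    (((Scheme.Modules.pullback f).obj M).presheaf.map (homOfLE h').op).hom hn).symm
  rw [← ((Scheme.Modules.pullback f).obj M).presheaf.map_comp_apply]
  change _ = ((Scheme.Modules.pullback f).obj M).presheaf.map (homOfLE h').op
    (((Scheme.Modules.pullback f).obj M).presheaf.map ((Opens.map f.base).map (homOfLE hV)).op _)
  rw [← ((Scheme.Modules.pullback f).obj M).presheaf.map_comp_apply]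
  rfl

variable {U : X.Opens} {U' : X'.Opens}

/-- Restriction between equal opens is injective. -/
theorem restriction_injective {Y : Scheme.{u}} (Q : Y.Modules) {A B : Y.Opens} (hAB : A = B)
    (hle : B ≤ A) {a b : Γ(Q, A)}
    (hab : Q.presheaf.map (homOfLE hle).op a = Q.presheaf.map (homOfLE hle).op b) : a = b := by
  subst hAB
  rwa [show (homOfLE hle).op = 𝟙 (Opposite.op A) from Subsingleton.elim _ _,
    CategoryTheory.Functor.map_id] at hab

/-- The pulled back sections generate on an affine open. -/
theorem span_range_pullSection (hU : IsAffineOpen U) (hU' : IsAffineOpen U')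
    (hM : Scheme.Modules.IsInvertible M) (h : U' ≤ f ⁻¹ᵁ U) :
    Submodule.span Γ(X', U') (Set.range (pullSection f M h)) = ⊤ := by
  have : M.IsQuasicoherent := isQuasicoherent_of_isInvertible hM
  set F := (Scheme.Modules.pullback f).obj M
  set F' := F.restrict hU'.fromSpec
  have : F'.IsQuasicoherent :=
    isQuasicoherent_of_isInvertible (isInvertible_restrict (hM.pullback f) hU'.fromSpec)
  set S := Submodule.span Γ(X', U') (Set.range (pullSection f M h))
  let p : (moduleSpecΓFunctor.obj F' : ModuleCat Γ(X', U')) ⟶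
      ModuleCat.of Γ(X', U') (Γ(F, U') ⧸ S) :=
    (LinearEquiv.toModuleIso (X₁ := moduleSpecΓFunctor.obj F') (gammaRestrictEquiv hU' F)).hom ≫
      ModuleCat.ofHom S.mkQ
  set Q := tilde (ModuleCat.of Γ(X', U') (Γ(F, U') ⧸ S))
  let q : F' ⟶ Q := (tildeGammaIso F').inv ≫ (tilde.functor Γ(X', U')).map p
  let N := (Scheme.Modules.pushforward hU'.fromSpec).obj Q
  let hh : F ⟶ N := (Scheme.Modules.restrictAdjunction hU'.fromSpec).unit.app F ≫
    (Scheme.Modules.pushforward hU'.fromSpec).map q
  have key : ∀ {V : X.Opens} (m : Γ(M, V)),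
      Scheme.Modules.Hom.app ((Scheme.Modules.pullbackPushforwardAdjunction f).homEquiv M N hh) V m =
        hh.app (f ⁻¹ᵁ V) (Scheme.Modules.Hom.app
          ((Scheme.Modules.pullbackPushforwardAdjunction f).unit.app M) V m) := by
    intro V m
    rw [Adjunction.homEquiv_unit]
    rfl
  -- global sections: the composite is the quotient map
  have hq : ∀ m : Γ(F', ⊤), q.app ⊤ m =
      tilde.toOpen (ModuleCat.of Γ(X', U') (Γ(F, U') ⧸ S)) ⊤ (p m) := by
    intro m
    have h1 : moduleSpecΓFunctor.map (tildeGammaIso F').hom =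
        (tilde.toTildeΓNatIso.app (moduleSpecΓFunctor.obj F')).inv := by
      rw [← Iso.hom_comp_eq_id]
      exact (tilde.adjunction (R := Γ(X', U'))).right_triangle_components F'
    have h2 : moduleSpecΓFunctor.map q =
        p ≫ (tilde.toTildeΓNatIso.app _).hom := by
      rw [Functor.map_comp, ← Functor.mapIso_inv, Iso.inv_comp_eq, Functor.mapIso_hom, h1,
        Iso.eq_inv_comp]
      exact (tilde.toTildeΓNatIso.hom.naturality p).symm
    clear_value q
    exact ConcreteCategory.congr_hom h2 m
  clear_value q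
  -- the adjoint map vanishes
  have hzero : (Scheme.Modules.pullbackPushforwardAdjunction f).homEquiv M N hh = 0 := by
    apply Scheme.Modules.hom_ext
    intro V
    ext m
    rw [Scheme.Modules.Hom.zero_app]
    show Scheme.Modules.Hom.app
      ((Scheme.Modules.pullbackPushforwardAdjunction f).homEquiv M N hh) V m = 0
    -- reduce to the affine open U
    have hpre : hU'.fromSpec ⁻¹ᵁ (f ⁻¹ᵁ V) ≤ hU'.fromSpec ⁻¹ᵁ (f ⁻¹ᵁ (V ⊓ U)) := by
      intro y hy
      have hy' : hU'.fromSpec y ∈ U' := by
        have : hU'.fromSpec y ∈ hU'.fromSpec.opensRange := ⟨y, rfl⟩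
        rwa [hU'.opensRange_fromSpec] at this
      exact ⟨hy, h hy'⟩
    set ψ := (Scheme.Modules.pullbackPushforwardAdjunction f).homEquiv M N hh with hψ
    suffices hU0 : ∀ (W : X.Opens) (_ : W ≤ U) (w : Γ(M, W)), ψ.app W w = 0 by
      have hn := ConcreteCategory.congr_hom
        (ψ.mapPresheaf.naturality (homOfLE (inf_le_left : V ⊓ U ≤ V)).op) m
      simp only [ConcreteCategory.comp_apply, Scheme.Modules.mapPresheaf_app] at hn
      rw [hU0 _ inf_le_right] at hn
      change (0 : Γ(Q, _)) = Q.presheaf.map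
        (homOfLE (show hU'.fromSpec ⁻¹ᵁ (f ⁻¹ᵁ (V ⊓ U)) ≤ hU'.fromSpec ⁻¹ᵁ (f ⁻¹ᵁ V) from
          fun y hy => hy.1)).op (ψ.app V m) at hn
      refine restriction_injective Q (B := hU'.fromSpec ⁻¹ᵁ (f ⁻¹ᵁ (V ⊓ U))) ?_
        (fun y hy => hy.1) ?_
      · exact le_antisymm hpre (fun y hy => hy.1)
      · exact hn.symm.trans (map_zero _).symm
    intro W hWU w
    apply TopCat.Sheaf.eq_of_locally_eq' ⟨_, ((Scheme.Modules.pushforward f).obj N).isSheaf⟩
      (fun i : {g : Γ(X, U) // X.basicOpen g ≤ W} => X.basicOpen i.1) W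
      (fun i => homOfLE i.2)
    · intro x hx
      obtain ⟨g, hgW, hxg⟩ := hU.exists_basicOpen_le (⟨x, hx⟩ : W) (hWU hx)
      exact Opens.mem_iSup.mpr ⟨⟨g, hgW⟩, hxg⟩
    rintro ⟨g, hgW⟩
    rw [map_zero]
    have hn := ConcreteCategory.congr_hom (ψ.mapPresheaf.naturality (homOfLE hgW).op) w
    simp only [ConcreteCategory.comp_apply, Scheme.Modules.mapPresheaf_app] at hn
    refine hn.symm.trans ?_
    set w' := M.presheaf.map (homOfLE hgW).op w
    obtain ⟨n, t, ht⟩ := exists_pow_smul_eq_res hU M g w'
    have ht0 : ψ.app U t = 0 := by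
      rw [hψ, key]
      set a := Scheme.Modules.Hom.app
        ((Scheme.Modules.pullbackPushforwardAdjunction f).unit.app M) U t
      have ha : F.presheaf.map (homOfLE h).op a ∈ S := Submodule.subset_span ⟨t, rfl⟩
      change q.app _ (F.presheaf.map (homOfLE (hU'.fromSpec.image_preimage_le _)).op a) = 0
      have htop : hU'.fromSpec ⁻¹ᵁ (f ⁻¹ᵁ U) = ⊤ := by
        rw [eq_top_iff, ← hU'.fromSpec_preimage_self]
        exact hU'.fromSpec.preimage_mono h
      apply ((ConcreteCategory.bijective_of_isIso (Q.presheaf.map (eqToHom htop.symm).op)).1)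
      rw [map_zero]
      have hn2 := ConcreteCategory.congr_hom (q.mapPresheaf.naturality (eqToHom htop.symm).op)
        (F.presheaf.map (homOfLE (hU'.fromSpec.image_preimage_le (f ⁻¹ᵁ U))).op a)
      simp only [ConcreteCategory.comp_apply, Scheme.Modules.mapPresheaf_app] at hn2
      refine hn2.symm.trans ?_
      rw [hq]
      have hp : p (F'.presheaf.map (eqToHom htop.symm).op
          (F.presheaf.map (homOfLE (hU'.fromSpec.image_preimage_le (f ⁻¹ᵁ U))).op a)) = 0 := by
        change S.mkQ (F.presheaf.map (eqToHom (fromSpec_image_top_eq hU').symm).op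
          (F.presheaf.map (homOfLE (hU'.fromSpec.image_mono (le_of_eq htop.symm))).op
            (F.presheaf.map (homOfLE (hU'.fromSpec.image_preimage_le (f ⁻¹ᵁ U))).op a))) = 0
        rw [← F.presheaf.map_comp_apply, ← F.presheaf.map_comp_apply, Submodule.mkQ_apply,
          Submodule.Quotient.mk_eq_zero]
        exact ha
      rw [hp, map_zero]
      rfl
    have hn3 := ConcreteCategory.congr_hom
      (ψ.mapPresheaf.naturality (homOfLE (X.basicOpen_le g)).op) t
    simp only [ConcreteCategory.comp_apply, Scheme.Modules.mapPresheaf_app] at hn3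
    rw [ht, ht0, map_zero, Scheme.Modules.Hom.app_smul] at hn3
    have hu : IsUnit (X.presheaf.map (homOfLE (X.basicOpen_le g)).op (g ^ n)) := by
      rw [map_pow]
      exact (RingedSpace.isUnit_res_basicOpen X.toRingedSpace g).pow n
    exact hu.smul_eq_zero.mp hn3
  have hh0 : hh = 0 := by
    apply ((Scheme.Modules.pullbackPushforwardAdjunction f).homEquiv M N).injective
    rw [hzero, Adjunction.homEquiv_unit, Functor.map_zero, comp_zero]
  rw [eq_top_iff]
  rintro x -
  set x' := (gammaRestrictEquiv hU' F).symm x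
  have h5 : hh.app U' x = 0 := by rw [hh0]; rfl
  have htop' : hU'.fromSpec ⁻¹ᵁ U' = ⊤ := hU'.fromSpec_preimage_self
  change q.app _ (F.presheaf.map (homOfLE (hU'.fromSpec.image_preimage_le _)).op x) = 0 at h5
  have h6 := congrArg (Q.presheaf.map (eqToHom htop'.symm).op) h5
  rw [map_zero] at h6
  have hn4 := ConcreteCategory.congr_hom (q.mapPresheaf.naturality (eqToHom htop'.symm).op)
    (F.presheaf.map (homOfLE (hU'.fromSpec.image_preimage_le U')).op x)
  simp only [ConcreteCategory.comp_apply, Scheme.Modules.mapPresheaf_app] at hn4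
  have h7 := hn4.trans h6
  rw [hq] at h7
  have h8 : p (F'.presheaf.map (eqToHom htop'.symm).op
      (F.presheaf.map (homOfLE (hU'.fromSpec.image_preimage_le U')).op x)) = 0 := by
    apply (ConcreteCategory.bijective_of_isIso
      (tilde.toOpen (ModuleCat.of Γ(X', U') (Γ(F, U') ⧸ S)) ⊤)).1
    exact h7.trans (map_zero _).symm
  change S.mkQ (F.presheaf.map (eqToHom (fromSpec_image_top_eq hU').symm).op
    (F.presheaf.map (homOfLE (hU'.fromSpec.image_mono (le_of_eq htop'.symm))).op
      (F.presheaf.map (homOfLE (hU'.fromSpec.image_preimage_le U')).op x))) = 0 at h8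
  rw [← F.presheaf.map_comp_apply, ← F.presheaf.map_comp_apply, Submodule.mkQ_apply,
    Submodule.Quotient.mk_eq_zero] at h8
  have hid : ∀ i : Opposite.op U' ⟶ Opposite.op U', F.presheaf.map i x = x := fun i => by
    rw [show i = 𝟙 _ from Subsingleton.elim _ _, CategoryTheory.Functor.map_id]
    rfl
  rwa [hid] at h8

end Fermat.Agent.Row24
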