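import Mathlib
import Fermat.Agent.Row24.Chart.Ops
import Fermat.Agent.Row24.Dict.Charts
import Fermat.Agent.Row24.Dict.PullSection

/-!
# From invertible sheaves to glued bundles: sections over the two charts
-/

set_option autoImplicit false

universe u

open CategoryTheory CategoryTheory.Limits AlgebraicGeometry TopologicalSpace

noncomputable section

namespace Fermat.Agent.Row24.Dict

open Chart

/-- Invertibility can be moved along a semilinear bijection over a ring isomorphism. -/
theorem moduleInvertible_of_ringEquiv {R S M N : Type*} [CommRing R] [CommRing S]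
    [AddCommGroup M] [Module R M] [AddCommGroup N] [Module S N] (σ : R ≃+* S) (l : M ≃+ N)
    (hl : ∀ (r : R) (m : M), l (r • m) = σ r • l m) [Module.Invertible S N] :
    Module.Invertible R M := by
  refine moduleInvertible_of_swap ?_ ?_
  · intro φ a b
    let φ' : N →ₗ[S] S :=
      { toFun := fun n => σ (φ (l.symm n))
        map_add' := fun n n' => by simp
        map_smul' := fun s n => by
          have h : l.symm (s • n) = σ.symm s • l.symm n := by
            rw [AddEquiv.symm_apply_eq, hl]; simp
          simp [h] }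
    apply l.injective
    rw [hl, hl]
    have h := apply_smul_comm φ' (l a) (l b)
    simpa [φ'] using h
  · obtain ⟨t, ht⟩ := (Module.Invertible.bijective (R := S) (M := N)).2 1
    rw [Ideal.eq_top_iff_one]
    have key : ∀ z, σ.symm (contractLeft S N z) ∈
        Ideal.span (Set.range fun p : (M →ₗ[R] R) × M => p.1 p.2) := by
      intro z
      induction z using TensorProduct.induction_on with
      | zero => simp
      | add a b ha hb => rw [map_add, map_add]; exact add_mem ha hb
      | tmul f n =>
        refine Ideal.subset_span ⟨⟨{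
          toFun := fun m => σ.symm (f (l m))
          map_add' := fun a b => by simp
          map_smul' := fun r m => by simp [hl] }, l.symm n⟩, ?_⟩
        simp
    simpa [ht] using key t

variable {k : Type u} [Field k] {C : CurveRings k} {A : Type u} [CommRing A] [Algebra k A]
  {X : Scheme.{u}} (T : TwoCharts C A X) (M : X.Modules)

/-- Sections over the overlap, as a module over the ring of the overlap. -/
def Sec : Type u := Γ(M, T.V1 ⊓ T.V2)

instance : AddCommGroup (Sec T M) :=
  inferInstanceAs (AddCommGroup Γ(M, T.V1 ⊓ T.V2))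

instance : Module (C.R12 A) (Sec T M) :=
  Module.compHom Γ(M, T.V1 ⊓ T.V2) T.e.toRingHom

instance : Module A (Sec T M) :=
  Module.compHom (Sec T M) (algebraMap A (C.R12 A))

instance : IsScalarTower A (C.R12 A) (Sec T M) :=
  IsScalarTower.of_algebraMap_smul fun _ _ => rfl

variable {T M}

theorem sec_smul (r : C.R12 A) (m : Sec T M) :
    r • m = ((T.e r) • (show Γ(M, T.V1 ⊓ T.V2) from m) : Γ(M, T.V1 ⊓ T.V2)) := rfl

variable (T M)

/-- Restriction from the first chart. -/
def res1M : Γ(M, T.V1) →+ Sec T M :=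
  (M.presheaf.map (homOfLE (inf_le_left : T.V1 ⊓ T.V2 ≤ T.V1)).op).hom

/-- Restriction from the second chart. -/
def res2M : Γ(M, T.V2) →+ Sec T M :=
  (M.presheaf.map (homOfLE (inf_le_right : T.V1 ⊓ T.V2 ≤ T.V2)).op).hom

theorem res1M_smul (r : C.R1 A) (m : Γ(M, T.V1)) :
    res1M T M (T.e1 r • m) = (r : C.R12 A) • res1M T M m := by
  rw [sec_smul, ← T.res1 r]
  exact M.map_smul _ _ _

theorem res2M_smul (r : C.R2 A) (m : Γ(M, T.V2)) :
    res2M T M (T.e2 r • m) = (r : C.R12 A) • res2M T M m := by
  rw [sec_smul, ← T.res2 r]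
  exact M.map_smul _ _ _

/-- Sections on the first chart inside those on the overlap. -/
def lattice1 : Submodule (C.R1 A) (Sec T M) where
  carrier := Set.range (res1M T M)
  add_mem' := by rintro _ _ ⟨a, rfl⟩ ⟨b, rfl⟩; exact ⟨a + b, map_add _ _ _⟩
  zero_mem' := ⟨0, map_zero _⟩
  smul_mem' := by rintro r _ ⟨a, rfl⟩; exact ⟨T.e1 r • a, res1M_smul T M r a⟩

/-- Sections on the second chart inside those on the overlap. -/
def lattice2 : Submodule (C.R2 A) (Sec T M) where
  carrier := Set.range (res2M T M)
  add_mem' := by rintro _ _ ⟨a, rfl⟩ ⟨b, rfl⟩; exact ⟨a + b, map_add _ _ _⟩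
  zero_mem' := ⟨0, map_zero _⟩
  smul_mem' := by rintro r _ ⟨a, rfl⟩; exact ⟨T.e2 r • a, res2M_smul T M r a⟩

/-- Extension from a basic open, with the basic open given up to equality. -/
theorem exists_pow_smul_eq_res' {U W : X.Opens} (hU : IsAffineOpen U) [M.IsQuasicoherent]
    (g : Γ(X, U)) (hW : X.basicOpen g = W) (hle : W ≤ U) (s : Γ(M, W)) :
    ∃ (n : ℕ) (t : Γ(M, U)), M.presheaf.map (homOfLE hle).op t =
      (X.presheaf.map (homOfLE hle).op (g ^ n)) • s := by
  subst hW
  exact exists_pow_smul_eq_res hU M g s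

/-- Restriction to a basic open of a nonzerodivisor is injective on invertible sheaves. -/
theorem res_injective_of_regular {U W : X.Opens} (hU : IsAffineOpen U)
    (hM : Scheme.Modules.IsInvertible M) (g : Γ(X, U)) (hg : g ∈ nonZeroDivisors Γ(X, U))
    (hW : X.basicOpen g = W) (hle : W ≤ U) :
    Function.Injective (M.presheaf.map (homOfLE hle).op) := by
  subst hW
  have := isQuasicoherent_of_isInvertible hM
  have := moduleInvertible_sections hU hM
  refine (injective_iff_map_eq_zero _).mpr fun t ht => ?_
  obtain ⟨n, hn⟩ := exists_pow_smul_eq_zero hU M g t ht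
  rw [← Module.forall_dual_apply_eq_zero_iff Γ(X, U) t]
  intro φ
  have h := congrArg φ hn
  rw [map_smul, map_zero, smul_eq_mul] at h
  exact (pow_mem hg n).1 _ h

theorem e1_xA_regular : T.e1 ⟨C.xA A, C.xA_mem⟩ ∈ nonZeroDivisors Γ(X, T.V1) := by
  refine mem_nonZeroDivisors_iff_right.mpr fun z hz => ?_
  have h := congrArg (fun w => ((T.e1.symm w : C.R1 A) : C.R12 A)) hz
  simp only [map_mul, RingEquiv.symm_apply_apply, MulMemClass.coe_mul, map_zero,
    ZeroMemClass.coe_zero] at h
  rw [C.isUnit_xA.mul_left_eq_zero] at h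
  exact T.e1.symm.injective (Subtype.ext (by simpa using h))

theorem e2_yA_regular : T.e2 ⟨C.yA A, C.yA_mem⟩ ∈ nonZeroDivisors Γ(X, T.V2) := by
  refine mem_nonZeroDivisors_iff_right.mpr fun z hz => ?_
  have h := congrArg (fun w => ((T.e2.symm w : C.R2 A) : C.R12 A)) hz
  simp only [map_mul, RingEquiv.symm_apply_apply, MulMemClass.coe_mul, map_zero,
    ZeroMemClass.coe_zero] at h
  rw [C.isUnit_yA.mul_left_eq_zero] at h
  exact T.e2.symm.injective (Subtype.ext (by simpa using h))

theorem res1M_injective (hM : Scheme.Modules.IsInvertible M) :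
    Function.Injective (res1M T M) :=
  res_injective_of_regular M T.isAffine1 hM _ (e1_xA_regular T) T.basic1 _

theorem res2M_injective (hM : Scheme.Modules.IsInvertible M) :
    Function.Injective (res2M T M) :=
  res_injective_of_regular M T.isAffine2 hM _ (e2_yA_regular T) T.basic2 _

/-- The overlap of the charts is affine. -/
theorem isAffine12 : IsAffineOpen (T.V1 ⊓ T.V2) := by
  rw [← T.basic1]
  exact T.isAffine1.basicOpen _

theorem moduleInvertible_lattice1 (hM : Scheme.Modules.IsInvertible M) :
    Module.Invertible (C.R1 A) (lattice1 T M) := by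
  have := moduleInvertible_sections T.isAffine1 hM
  let f : Γ(M, T.V1) → lattice1 T M := fun a => ⟨res1M T M a, a, rfl⟩
  have hf : Function.Bijective f :=
    ⟨fun a b hab => res1M_injective T M hM (congrArg Subtype.val hab),
      fun ⟨_, a, ha⟩ => ⟨a, Subtype.ext ha⟩⟩
  let l : Γ(M, T.V1) ≃+ lattice1 T M :=
    AddEquiv.mk' (Equiv.ofBijective f hf) fun a b => Subtype.ext (map_add (res1M T M) a b)
  refine moduleInvertible_of_ringEquiv (M := lattice1 T M) (N := Γ(M, T.V1)) T.e1 l.symm fun r m => ?_
  rw [AddEquiv.symm_apply_eq]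
  conv_lhs => rw [← l.apply_symm_apply m]
  exact Subtype.ext (res1M_smul T M r (l.symm m)).symm

theorem moduleInvertible_lattice2 (hM : Scheme.Modules.IsInvertible M) :
    Module.Invertible (C.R2 A) (lattice2 T M) := by
  have := moduleInvertible_sections T.isAffine2 hM
  let f : Γ(M, T.V2) → lattice2 T M := fun a => ⟨res2M T M a, a, rfl⟩
  have hf : Function.Bijective f :=
    ⟨fun a b hab => res2M_injective T M hM (congrArg Subtype.val hab),
      fun ⟨_, a, ha⟩ => ⟨a, Subtype.ext ha⟩⟩
  let l : Γ(M, T.V2) ≃+ lattice2 T M :=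
    AddEquiv.mk' (Equiv.ofBijective f hf) fun a b => Subtype.ext (map_add (res2M T M) a b)
  refine moduleInvertible_of_ringEquiv (M := lattice2 T M) (N := Γ(M, T.V2)) T.e2 l.symm fun r m => ?_
  rw [AddEquiv.symm_apply_eq]
  conv_lhs => rw [← l.apply_symm_apply m]
  exact Subtype.ext (res2M_smul T M r (l.symm m)).symm

/-- The glued bundle of sections of an invertible sheaf. -/
@[reducible] def ofSections (hM : Scheme.Modules.IsInvertible M) : Glued C A :=
  have := isQuasicoherent_of_isInvertible hM
  { carrier := Sec T M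
    M1 := lattice1 T M
    M2 := lattice2 T M
    invertible :=
      haveI := moduleInvertible_sections (isAffine12 T) hM
      moduleInvertible_of_ringEquiv T.e
        (show Sec T M ≃+ Γ(M, T.V1 ⊓ T.V2) from AddEquiv.refl _) fun _ _ => rfl
    invertible1 := moduleInvertible_lattice1 T M hM
    invertible2 := moduleInvertible_lattice2 T M hM
    loc1 := fun m => by
      obtain ⟨n, t, ht⟩ := exists_pow_smul_eq_res' M T.isAffine1
        (T.e1 ⟨C.xA A, C.xA_mem⟩) T.basic1 inf_le_left (m : Γ(M, T.V1 ⊓ T.V2))
      refine ⟨n, t, ?_⟩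
      rw [← map_pow, T.res1, SubmonoidClass.coe_pow] at ht
      exact ht
    loc2 := fun m => by
      obtain ⟨n, t, ht⟩ := exists_pow_smul_eq_res' M T.isAffine2
        (T.e2 ⟨C.yA A, C.yA_mem⟩) T.basic2 inf_le_right (m : Γ(M, T.V1 ⊓ T.V2))
      refine ⟨n, t, ?_⟩
      rw [← map_pow, T.res2, SubmonoidClass.coe_pow] at ht
      exact ht }

end Fermat.Agent.Row24.Dict

end
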