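import Mathlib
import Fermat.Agent.Row24.Dict.Sections

/-!
# Functoriality of the dictionary: isomorphisms, the unit, base change
-/

set_option autoImplicit false

universe u

open CategoryTheory CategoryTheory.Limits AlgebraicGeometry TopologicalSpace

noncomputable section

namespace Fermat.Agent.Row24.Dict

open Chart

variable {k : Type u} [Field k] {C : CurveRings k} {A : Type u} [CommRing A] [Algebra k A]
  {X : Scheme.{u}} (T : TwoCharts C A X)

/-- Isomorphic sheaves have isomorphic bundles of sections. -/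
def isoOfIso {M N : X.Modules} (α : M ≅ N) (hM : Scheme.Modules.IsInvertible M)
    (hN : Scheme.Modules.IsInvertible N) :
    Glued.Iso (ofSections T M hM) (ofSections T N hN) where
  equiv :=
    { toFun := fun m => α.hom.app (T.V1 ⊓ T.V2) (m : Γ(M, T.V1 ⊓ T.V2))
      invFun := fun m => α.inv.app (T.V1 ⊓ T.V2) (m : Γ(N, T.V1 ⊓ T.V2))
      left_inv := fun m => by
        show (α.hom.app _ ≫ α.inv.app _) m = m
        rw [← Scheme.Modules.Hom.comp_app, α.hom_inv_id]; rfl
      right_inv := fun m => by
        show (α.inv.app _ ≫ α.hom.app _) m = m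
        rw [← Scheme.Modules.Hom.comp_app, α.inv_hom_id]; rfl
      map_add' := fun a b => map_add (α.hom.app (T.V1 ⊓ T.V2)).hom a b
      map_smul' := fun r m => α.hom.app_smul (T.e r) _ }
  mem1 m := by
    constructor
    · rintro ⟨a, ha⟩
      refine ⟨α.inv.app T.V1 a, ?_⟩
      have hn := ConcreteCategory.congr_hom (α.inv.mapPresheaf.naturality
        (homOfLE (inf_le_left : T.V1 ⊓ T.V2 ≤ T.V1)).op) a
      simp only [ConcreteCategory.comp_apply, Scheme.Modules.mapPresheaf_app] at hn
      refine hn.symm.trans ?_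
      refine (congrArg (α.inv.app (T.V1 ⊓ T.V2)).hom ha).trans ?_
      show (α.hom.app _ ≫ α.inv.app _) m = m
      rw [← Scheme.Modules.Hom.comp_app, α.hom_inv_id]; rfl
    · rintro ⟨a, rfl⟩
      exact ⟨α.hom.app T.V1 a, (ConcreteCategory.congr_hom (α.hom.mapPresheaf.naturality
        (homOfLE (inf_le_left : T.V1 ⊓ T.V2 ≤ T.V1)).op) a).symm⟩
  mem2 m := by
    constructor
    · rintro ⟨a, ha⟩
      refine ⟨α.inv.app T.V2 a, ?_⟩
      have hn := ConcreteCategory.congr_hom (α.inv.mapPresheaf.naturality
        (homOfLE (inf_le_right : T.V1 ⊓ T.V2 ≤ T.V2)).op) a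
      simp only [ConcreteCategory.comp_apply, Scheme.Modules.mapPresheaf_app] at hn
      refine hn.symm.trans ?_
      refine (congrArg (α.inv.app (T.V1 ⊓ T.V2)).hom ha).trans ?_
      show (α.hom.app _ ≫ α.inv.app _) m = m
      rw [← Scheme.Modules.Hom.comp_app, α.hom_inv_id]; rfl
    · rintro ⟨a, rfl⟩
      exact ⟨α.hom.app T.V2 a, (ConcreteCategory.congr_hom (α.hom.mapPresheaf.naturality
        (homOfLE (inf_le_right : T.V1 ⊓ T.V2 ≤ T.V2)).op) a).symm⟩

/-- The structure sheaf gives the trivial bundle. -/
def unitIso :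
    Glued.Iso (ofSections T (SheafOfModules.unit X.ringCatSheaf)
      (Scheme.Modules.isInvertible_unit X)) (Glued.trivial C A) where
  equiv :=
    { toFun := fun m => T.e.symm (m : Γ(X, T.V1 ⊓ T.V2))
      invFun := fun r => (T.e r : Γ(X, T.V1 ⊓ T.V2))
      left_inv := fun m => T.e.apply_symm_apply _
      right_inv := fun r => T.e.symm_apply_apply r
      map_add' := fun a b => map_add T.e.symm _ _
      map_smul' := fun r m => by
        show T.e.symm (T.e r * _) = r * T.e.symm _
        rw [map_mul, RingEquiv.symm_apply_apply] }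
  mem1 m := by
    refine Glued.mem_span_one.trans ⟨fun h => ?_, ?_⟩
    · refine ⟨(T.e1 ⟨_, h⟩ : Γ(X, T.V1)), ?_⟩
      exact (T.res1 ⟨_, h⟩).trans (T.e.apply_symm_apply _)
    · rintro ⟨a, rfl⟩
      show T.e.symm (X.presheaf.map (homOfLE (inf_le_left : T.V1 ⊓ T.V2 ≤ T.V1)).op
        (a : Γ(X, T.V1))) ∈ C.R1 A
      rw [← T.e1.apply_symm_apply (a : Γ(X, T.V1)), T.res1, RingEquiv.symm_apply_apply]
      exact Subtype.property _
  mem2 m := by
    refine Glued.mem_span_one.trans ⟨fun h => ?_, ?_⟩
    · refine ⟨(T.e2 ⟨_, h⟩ : Γ(X, T.V2)), ?_⟩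
      exact (T.res2 ⟨_, h⟩).trans (T.e.apply_symm_apply _)
    · rintro ⟨a, rfl⟩
      show T.e.symm (X.presheaf.map (homOfLE (inf_le_right : T.V1 ⊓ T.V2 ≤ T.V2)).op
        (a : Γ(X, T.V2))) ∈ C.R2 A
      rw [← T.e2.apply_symm_apply (a : Γ(X, T.V2)), T.res2, RingEquiv.symm_apply_apply]
      exact Subtype.property _

variable {A' : Type u} [CommRing A'] [Algebra k A'] {X' : Scheme.{u}} {T} (T' : TwoCharts C A' X')
  {φ : A →ₐ[k] A'} {f : X' ⟶ X}

/-- Inverse image along compatible morphisms is base change of bundles. -/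
def pullHom (hc : Compat T T' φ f) {M : X.Modules} (hM : Scheme.Modules.IsInvertible M) :
    Glued.Hom φ (ofSections T M hM)
      (ofSections T' ((Scheme.Modules.pullback f).obj M) (hM.pullback f)) where
  toFun := pullSection f M hc.le12
  map_smul r m := by
    refine (pullSection_smul f M hc.le12 (T.e r) (show Γ(M, T.V1 ⊓ T.V2) from m)).trans ?_
    rw [hc.app hc.le12 r]
    rfl
  span1 := by
    set F := (Scheme.Modules.pullback f).obj M
    refine le_antisymm (Submodule.span_le.2 ?_) ?_
    · rintro _ ⟨_, ⟨a, rfl⟩, rfl⟩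
      exact ⟨pullSection f M hc.le1 a, pullSection_res f M hc.le1 inf_le_left inf_le_left hc.le12 a⟩
    · rintro _ ⟨b, rfl⟩
      have hb : b ∈ Submodule.span Γ(X', T'.V1) (Set.range (pullSection f M hc.le1)) := by
        rw [span_range_pullSection f M T.isAffine1 T'.isAffine1 hM hc.le1]
        exact Submodule.mem_top
      induction hb using Submodule.span_induction with
      | mem x hx =>
        obtain ⟨a, rfl⟩ := hx
        exact Submodule.subset_span ⟨res1M T M a, ⟨a, rfl⟩,
          (pullSection_res f M hc.le1 inf_le_left inf_le_left hc.le12 a).symm⟩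
      | zero =>
        rw [map_zero]
        exact Submodule.zero_mem _
      | add x y _ _ hx hy =>
        rw [map_add]
        exact Submodule.add_mem _ hx hy
      | smul r x _ hx =>
        rw [← T'.e1.apply_symm_apply r, res1M_smul]
        exact Submodule.smul_mem _ (T'.e1.symm r) hx
  span2 := by
    set F := (Scheme.Modules.pullback f).obj M
    refine le_antisymm (Submodule.span_le.2 ?_) ?_
    · rintro _ ⟨_, ⟨a, rfl⟩, rfl⟩
      exact ⟨pullSection f M hc.le2 a,
        pullSection_res f M hc.le2 inf_le_right inf_le_right hc.le12 a⟩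
    · rintro _ ⟨b, rfl⟩
      have hb : b ∈ Submodule.span Γ(X', T'.V2) (Set.range (pullSection f M hc.le2)) := by
        rw [span_range_pullSection f M T.isAffine2 T'.isAffine2 hM hc.le2]
        exact Submodule.mem_top
      induction hb using Submodule.span_induction with
      | mem x hx =>
        obtain ⟨a, rfl⟩ := hx
        exact Submodule.subset_span ⟨res2M T M a, ⟨a, rfl⟩,
          (pullSection_res f M hc.le2 inf_le_right inf_le_right hc.le12 a).symm⟩
      | zero =>
        rw [map_zero]
        exact Submodule.zero_mem _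
      | add x y _ _ hx hy =>
        rw [map_add]
        exact Submodule.add_mem _ hx hy
      | smul r x _ hx =>
        rw [← T'.e2.apply_symm_apply r, res2M_smul]
        exact Submodule.smul_mem _ (T'.e2.symm r) hx

end Fermat.Agent.Row24.Dict

end
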