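import Mathlib
import Fermat.Agent.Row24.Curve.Basic
import Fermat.Prelude.Def_AlgebraicGeometry_RelativePicardFunctor

/-!
# Affine charts of `C × Spec A`

For an affine open set `U` of `C` and a model `e : B → Γ(C, U)` of its functions, the functions of
`C × Spec A` over `U` are `A ⊗ B`; this is compatible with restriction, with base change and with
the section at the base point.
-/

set_option autoImplicit false

universe u

open CategoryTheory CategoryTheory.Limits AlgebraicGeometry TopologicalSpace Opposite
open NeronModelInfra AlgebraicGeometry.RelPicard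
open scoped TensorProduct

noncomputable section

namespace Fermat.Agent.Row24.Dict

open Curve

variable {k : Type u} [Field k] {C : Scheme.{u}} (c : C ⟶ Spec (CommRingCat.of k))
variable (A : Type u) [CommRing A] [Algebra k A]

variable (k) in
/-- The structure morphism of the spectrum of an algebra. -/
abbrev affStr : Spec (CommRingCat.of A) ⟶ Spec (CommRingCat.of k) :=
  Spec.map (CommRingCat.ofHom (algebraMap k A))

/-- The part of `C × Spec A` over an open subset of `C`. -/
abbrev chartOpen (U : C.Opens) : (pullback c (affStr k A)).Opens :=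
  pullback.fst c (affStr k A) ⁻¹ᵁ U

theorem isAffineOpen_chartOpen {U : C.Opens} (hU : IsAffineOpen U) :
    IsAffineOpen (chartOpen c A U) :=
  haveI : IsAffineHom (pullback.fst c (affStr k A)) :=
    MorphismProperty.of_isPullback (P := @IsAffineHom)
      (IsPullback.of_hasPullback c (affStr k A)).flip inferInstance
  hU.preimage (pullback.fst c (affStr k A))

theorem le_preimage_top {X Y : Scheme.{u}} (f : X ⟶ Y) (W : X.Opens) : W ≤ f ⁻¹ᵁ (⊤ : Y.Opens) :=
  le_top

/-- Naturality of global functions of spectra, in the form used here. -/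
theorem comp_ΓSpecIso_inv {R S : CommRingCat.{u}} (φ : R ⟶ S) :
    φ ≫ (Scheme.ΓSpecIso S).inv =
      (Scheme.ΓSpecIso R).inv ≫ (Spec.map φ).appLE ⊤ ⊤ (le_preimage_top _ _) := by
  rw [Scheme.ΓSpecIso_inv_naturality]
  simp only [Scheme.Hom.appLE, Scheme.Hom.appTop]
  exact congrArg _ ((congrArg _ ((Spec S).presheaf.map_id _)).trans (Category.comp_id _)).symm

theorem chartOpen_mono {U V : C.Opens} (h : V ≤ U) : chartOpen c A V ≤ chartOpen c A U :=
  Scheme.Hom.preimage_mono _ h

theorem chartOpen_sup_eq_top {U V : C.Opens} (h : U ⊔ V = ⊤) :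
    chartOpen c A U ⊔ chartOpen c A V = ⊤ := by
  refine eq_top_iff.2 fun p _ => ?_
  have hp : pullback.fst c (affStr k A) p ∈ U ⊔ V := h ▸ trivial
  exact hp

section Hom

variable {U : C.Opens} {B : Type u} [CommRing B] [Algebra k B] (e : B →+* Γ(C, U))
variable (he : ∀ a : k, e (algebraMap k B a) = constHom c U a)

/-- Functions of the base, over a chart. -/
def chartLeft (U : C.Opens) : CommRingCat.of A ⟶ Γ(pullback c (affStr k A), chartOpen c A U) :=
  (Scheme.ΓSpecIso (CommRingCat.of A)).inv ≫
    (pullback.snd c (affStr k A)).appLE ⊤ (chartOpen c A U) (le_preimage_top _ _)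

/-- Functions of the curve, over a chart. -/
def chartRight : CommRingCat.of B ⟶ Γ(pullback c (affStr k A), chartOpen c A U) :=
  CommRingCat.ofHom e ≫ (pullback.fst c (affStr k A)).appLE U (chartOpen c A U) le_rfl

include he in
theorem chart_w :
    CommRingCat.ofHom (algebraMap k A) ≫ chartLeft c A U =
      CommRingCat.ofHom (algebraMap k B) ≫ chartRight c A e := by
  have h1 : CommRingCat.ofHom (algebraMap k B) ≫ CommRingCat.ofHom e =
      (Scheme.ΓSpecIso (CommRingCat.of k)).inv ≫ c.appLE ⊤ U (le_preimage_top _ _) :=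
    CommRingCat.hom_ext (RingHom.ext he)
  rw [chartLeft, chartRight, reassoc_of% h1,
    reassoc_of% (comp_ΓSpecIso_inv (CommRingCat.ofHom (algebraMap k A))),
    Scheme.Hom.appLE_comp_appLE, Scheme.Hom.appLE_comp_appLE]
  simp only [pullback.condition]

/-- The map `A ⊗ B → Γ(C × Spec A, U × Spec A)`. -/
def chartHom : A ⊗[k] B →+* Γ(pullback c (affStr k A), chartOpen c A U) :=
  ((CommRingCat.isPushout_tensorProduct k A B).desc (chartLeft c A U) (chartRight c A e)
    (chart_w c A e he)).hom

theorem chartHom_left (a : A) : chartHom c A e he (a ⊗ₜ 1) = chartLeft c A U a :=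
  congr($((CommRingCat.isPushout_tensorProduct k A B).inl_desc (chartLeft c A U)
    (chartRight c A e) (chart_w c A e he)) a)

theorem chartHom_right (b : B) : chartHom c A e he (1 ⊗ₜ b) = chartRight c A e b :=
  congr($((CommRingCat.isPushout_tensorProduct k A B).inr_desc (chartLeft c A U)
    (chartRight c A e) (chart_w c A e he)) b)

/-- **Functions over a chart of `C × Spec A`.** -/
theorem bijective_chartHom (hU : IsAffineOpen U) (hbij : Function.Bijective e) :
    Function.Bijective (chartHom c A e he) := by
  have hiso := isIso_pushoutSection_of_isAffineOpen (IsPullback.of_hasPullback c (affStr k A))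
    (US := ⊤) (UT := ⊤) (UX := U) (UY := chartOpen c A U) le_top le_top (by simp)
    (isAffineOpen_top _) (isAffineOpen_top _) hU
  have hpo := ((isIso_pushoutSection_iff _ _ _ _).1 hiso).flip
  let eB : Γ(C, U) ≅ CommRingCat.of B := (RingEquiv.ofBijective e hbij).toCommRingCatIso.symm
  have hpo' : IsPushout (CommRingCat.ofHom (algebraMap k A)) (CommRingCat.ofHom (algebraMap k B))
      (chartLeft c A U) (chartRight c A e) := by
    refine hpo.of_iso (Scheme.ΓSpecIso (CommRingCat.of k)) (Scheme.ΓSpecIso (CommRingCat.of A))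
      eB (Iso.refl _) ?_ ?_ ?_ ?_
    · rw [← Scheme.ΓSpecIso_naturality, Scheme.Hom.appTop, Scheme.Hom.app_eq_appLE]
      rfl
    · rw [← Iso.eq_comp_inv, Category.assoc, show eB.inv = CommRingCat.ofHom e from rfl,
        show CommRingCat.ofHom (algebraMap k B) ≫ CommRingCat.ofHom e =
          (Scheme.ΓSpecIso (CommRingCat.of k)).inv ≫ c.appLE ⊤ U (le_preimage_top _ _) from
          CommRingCat.hom_ext (RingHom.ext he), Iso.hom_inv_id_assoc]
    · simp [chartLeft]
    · rw [chartRight, show CommRingCat.ofHom e = eB.inv from rfl, Iso.hom_inv_id_assoc]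
      simp
  have heq : (CommRingCat.isPushout_tensorProduct k A B).desc (chartLeft c A U) (chartRight c A e)
      (chart_w c A e he) =
      ((CommRingCat.isPushout_tensorProduct k A B).isoIsPushout _ _ hpo').hom := by
    apply (CommRingCat.isPushout_tensorProduct k A B).hom_ext <;> simp
  have : IsIso ((CommRingCat.isPushout_tensorProduct k A B).desc (chartLeft c A U)
      (chartRight c A e) (chart_w c A e he)) := by
    rw [heq]
    infer_instance
  exact ConcreteCategory.bijective_of_isIso _

/-- The functions over a chart, as a ring equivalence. -/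
def chartEquiv (hU : IsAffineOpen U) (hbij : Function.Bijective e) :
    A ⊗[k] B ≃+* Γ(pullback c (affStr k A), chartOpen c A U) :=
  RingEquiv.ofBijective _ (bijective_chartHom c A e he hU hbij)

/-- Ring maps out of `A ⊗ B` are determined by their values on the two factors. -/
theorem ringHom_ext_tmul {S : Type*} [CommRing S] {f g : A ⊗[k] B →+* S}
    (h1 : ∀ a, f (a ⊗ₜ 1) = g (a ⊗ₜ 1)) (h2 : ∀ b, f (1 ⊗ₜ b) = g (1 ⊗ₜ b)) : f = g := by
  refine RingHom.ext fun x => ?_
  induction x using TensorProduct.induction_on with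
  | zero => rw [map_zero, map_zero]
  | tmul a b =>
      rw [show a ⊗ₜ[k] b = (a ⊗ₜ 1) * (1 ⊗ₜ b) by
        rw [Algebra.TensorProduct.tmul_mul_tmul, mul_one, one_mul], map_mul, map_mul, h1, h2]
  | add v w hv hw => rw [map_add, map_add, hv, hw]

variable {V : C.Opens} {B' : Type u} [CommRing B'] [Algebra k B'] (e' : B' →+* Γ(C, V))
variable (he' : ∀ a : k, e' (algebraMap k B' a) = constHom c V a)

theorem chartLeft_map (h : V ≤ U) :
    chartLeft c A U ≫ (pullback c (affStr k A)).presheaf.map (homOfLE (chartOpen_mono c A h)).op =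
      chartLeft c A V := by
  rw [chartLeft, chartLeft, Category.assoc, Scheme.Hom.appLE_map]

include he he' in
/-- Compatibility of the charts with restriction. -/
theorem map_chartHom (h : V ≤ U) (j : B →ₐ[k] B')
    (hj : ∀ b, C.presheaf.map (homOfLE h).op (e b) = e' (j b)) (x : A ⊗[k] B) :
    (pullback c (affStr k A)).presheaf.map (homOfLE (chartOpen_mono c A h)).op
        (chartHom c A e he x) =
      chartHom c A e' he' (Algebra.TensorProduct.map (AlgHom.id A A) j x) := by
  have hR : chartRight c A e ≫
      (pullback c (affStr k A)).presheaf.map (homOfLE (chartOpen_mono c A h)).op =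
      CommRingCat.ofHom j.toRingHom ≫ chartRight c A e' := by
    have h1 : CommRingCat.ofHom e ≫ C.presheaf.map (homOfLE h).op =
        CommRingCat.ofHom j.toRingHom ≫ CommRingCat.ofHom e' :=
      CommRingCat.hom_ext (RingHom.ext hj)
    rw [chartRight, chartRight, ← reassoc_of% h1, Category.assoc, Scheme.Hom.appLE_map,
      Scheme.Hom.map_appLE]
  refine RingHom.congr_fun (ringHom_ext_tmul A
    (f := ((pullback c (affStr k A)).presheaf.map (homOfLE (chartOpen_mono c A h)).op).hom.comp
      (chartHom c A e he))
    (g := (chartHom c A e' he').comp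
      (Algebra.TensorProduct.map (AlgHom.id A A) j).toRingHom) (fun a => ?_) fun b => ?_) x
  · show _ = chartHom c A e' he' (a ⊗ₜ j 1)
    rw [RingHom.comp_apply, map_one, chartHom_left, chartHom_left]
    exact congr($(chartLeft_map c A h) a)
  · show _ = chartHom c A e' he' (1 ⊗ₜ j b)
    rw [RingHom.comp_apply, chartHom_right, chartHom_right]
    exact congr($hR b)

section BaseChange

variable {A} {A' : Type u} [CommRing A'] [Algebra k A'] (φ : A →ₐ[k] A')

/-- The morphism over `k` of an algebra map. -/
def affHom : SchemeHomOver (affStr k A') (affStr k A) :=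
  ⟨Spec.map (CommRingCat.ofHom φ.toRingHom), by
    rw [← Spec.map_comp, ← CommRingCat.ofHom_comp]
    exact congrArg (fun f => Spec.map (CommRingCat.ofHom f)) φ.comp_algebraMap⟩

theorem affHom_coe : (affHom φ).1 = Spec.map (CommRingCat.ofHom φ.toRingHom) := rfl

theorem baseChangeSnd_fst (U : C.Opens) :
    baseChangeSnd c (affHom φ) ⁻¹ᵁ chartOpen c A U = chartOpen c A' U := by
  rw [chartOpen, ← Scheme.Hom.comp_preimage,
    show baseChangeSnd c (affHom φ) ≫ pullback.fst c (affStr k A) = pullback.fst c (affStr k A') by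
      rw [baseChangeSnd]
      exact (pullback.lift_fst _ _ _).trans (Category.comp_id _)]

theorem chartOpen_le_baseChange (U : C.Opens) :
    chartOpen c A' U ≤ baseChangeSnd c (affHom φ) ⁻¹ᵁ chartOpen c A U :=
  (baseChangeSnd_fst c φ U).ge

theorem chartLeft_baseChange (U : C.Opens) :
    chartLeft c A U ≫ (baseChangeSnd c (affHom φ)).appLE (chartOpen c A U) (chartOpen c A' U)
        (chartOpen_le_baseChange c φ U) =
      CommRingCat.ofHom φ.toRingHom ≫ chartLeft c A' U := by
  rw [chartLeft, chartLeft, reassoc_of% (comp_ΓSpecIso_inv (CommRingCat.ofHom φ.toRingHom)),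
    Category.assoc, Scheme.Hom.appLE_comp_appLE, Scheme.Hom.appLE_comp_appLE]
  simp only [baseChangeSnd, pullback.lift_snd, affHom_coe]

omit [Algebra k B] in
theorem chartRight_baseChange :
    chartRight c A e ≫ (baseChangeSnd c (affHom φ)).appLE (chartOpen c A U) (chartOpen c A' U)
        (chartOpen_le_baseChange c φ U) = chartRight c A' e := by
  rw [chartRight, chartRight, Category.assoc, Scheme.Hom.appLE_comp_appLE]
  simp only [baseChangeSnd, pullback.lift_fst, Category.comp_id]

/-- Compatibility of the charts with base change. -/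
theorem baseChange_chartHom (x : A ⊗[k] B) :
    (baseChangeSnd c (affHom φ)).appLE (chartOpen c A U) (chartOpen c A' U)
        (chartOpen_le_baseChange c φ U) (chartHom c A e he x) =
      chartHom c A' e he (Algebra.TensorProduct.map φ (AlgHom.id k B) x) := by
  refine RingHom.congr_fun (ringHom_ext_tmul A
    (f := ((baseChangeSnd c (affHom φ)).appLE (chartOpen c A U) (chartOpen c A' U)
      (chartOpen_le_baseChange c φ U)).hom.comp (chartHom c A e he))
    (g := (chartHom c A' e he).comp
      (Algebra.TensorProduct.map φ (AlgHom.id k B)).toRingHom) (fun a => ?_) fun b => ?_) x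
  · show _ = chartHom c A' e he (φ a ⊗ₜ 1)
    rw [RingHom.comp_apply, chartHom_left, chartHom_left]
    exact congr($(chartLeft_baseChange c φ U) a)
  · show _ = chartHom c A' e he (φ 1 ⊗ₜ b)
    rw [RingHom.comp_apply, map_one, chartHom_right, chartHom_right]
    exact congr($(chartRight_baseChange c e φ) b)

end BaseChange

section Section

variable (ε : SchemeHomOver (𝟙 (Spec (CommRingCat.of k))) c)

theorem rigSection_preimage (hε : ε.1 ⁻¹ᵁ U = ⊤) :
    rigSection c (affStr k A) ε ⁻¹ᵁ chartOpen c A U = ⊤ := by
  rw [chartOpen, ← Scheme.Hom.comp_preimage,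
    show rigSection c (affStr k A) ε ≫ pullback.fst c (affStr k A) = affStr k A ≫ ε.1 from
      pullback.lift_fst _ _ _, Scheme.Hom.comp_preimage, hε, Scheme.Hom.preimage_top]

theorem chartLeft_rigSection (hε : ε.1 ⁻¹ᵁ U = ⊤) :
    chartLeft c A U ≫ (rigSection c (affStr k A) ε).appLE (chartOpen c A U) ⊤
        (rigSection_preimage c A ε hε).ge = (Scheme.ΓSpecIso (CommRingCat.of A)).inv := by
  rw [chartLeft, Category.assoc, Scheme.Hom.appLE_comp_appLE]
  simp only [show rigSection c (affStr k A) ε ≫ pullback.snd c (affStr k A) = 𝟙 _ from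
    pullback.lift_snd _ _ _]
  simp [Scheme.Hom.appLE]

/-- Compatibility of the charts with the section at the base point. -/
theorem rigSection_chartHom (hε : ε.1 ⁻¹ᵁ U = ⊤) (aug : B →ₐ[k] k)
    (haug : ∀ b, ε.1.appLE U ⊤ hε.ge (e b) = (Scheme.ΓSpecIso (CommRingCat.of k)).inv (aug b))
    (x : A ⊗[k] B) :
    (rigSection c (affStr k A) ε).appLE (chartOpen c A U) ⊤ (rigSection_preimage c A ε hε).ge
        (chartHom c A e he x) =
      (Scheme.ΓSpecIso (CommRingCat.of A)).inv
        (Algebra.TensorProduct.rid k A A (Algebra.TensorProduct.map (AlgHom.id A A) aug x)) := by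
  have hR : chartRight c A e ≫ (rigSection c (affStr k A) ε).appLE (chartOpen c A U) ⊤
      (rigSection_preimage c A ε hε).ge = CommRingCat.ofHom aug.toRingHom ≫
        CommRingCat.ofHom (algebraMap k A) ≫ (Scheme.ΓSpecIso (CommRingCat.of A)).inv := by
    have h1 : CommRingCat.ofHom e ≫ ε.1.appLE U ⊤ hε.ge =
        CommRingCat.ofHom aug.toRingHom ≫ (Scheme.ΓSpecIso (CommRingCat.of k)).inv :=
      CommRingCat.hom_ext (RingHom.ext haug)
    rw [chartRight, Category.assoc, Scheme.Hom.appLE_comp_appLE,
      comp_ΓSpecIso_inv (CommRingCat.ofHom (algebraMap k A)), ← reassoc_of% h1,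
      Scheme.Hom.appLE_comp_appLE]
    simp only [rigSection, pullback.lift_fst]
  refine RingHom.congr_fun (ringHom_ext_tmul A
    (f := ((rigSection c (affStr k A) ε).appLE (chartOpen c A U) ⊤
      (rigSection_preimage c A ε hε).ge).hom.comp (chartHom c A e he))
    (g := (Scheme.ΓSpecIso (CommRingCat.of A)).inv.hom.comp
      ((Algebra.TensorProduct.rid k A A).toAlgHom.comp
        (Algebra.TensorProduct.map (AlgHom.id A A) aug)).toRingHom) (fun a => ?_) fun b => ?_) x
  · show _ = (Scheme.ΓSpecIso (CommRingCat.of A)).inv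
      (Algebra.TensorProduct.rid k A A (a ⊗ₜ aug 1))
    rw [RingHom.comp_apply, chartHom_left, map_one, Algebra.TensorProduct.rid_tmul, one_smul]
    exact congr($(chartLeft_rigSection c A ε hε) a)
  · show _ = (Scheme.ΓSpecIso (CommRingCat.of A)).inv
      (Algebra.TensorProduct.rid k A A (1 ⊗ₜ aug b))
    rw [RingHom.comp_apply, chartHom_right, Algebra.TensorProduct.rid_tmul,
      ← Algebra.algebraMap_eq_smul_one]
    exact congr($hR b)

end Section

end Hom

end Fermat.Agent.Row24.Dict

end
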