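import Fermat.Agent.Row24.Glue.TwoAffine
import Fermat.Agent.Row24.Dict.Sections

/-!
# From glued bundles to invertible sheaves

On a scheme with two charts, invertible sheaves with isomorphic glued bundles of sections are
isomorphic, and every glued bundle is the bundle of sections of an invertible sheaf.
-/

set_option autoImplicit false

universe u

open CategoryTheory AlgebraicGeometry TopologicalSpace

noncomputable section

namespace Fermat.Agent.Row24.Dict

open Chart Glue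

variable {k : Type u} [Field k] {C : CurveRings k} {A : Type u} [CommRing A] [Algebra k A]
  {X : Scheme.{u}} (T : TwoCharts C A X)

theorem res1_eq (r : Γ(X, T.V1)) :
    T.e.symm (resR (inf_le_left : T.V1 ⊓ T.V2 ≤ T.V1) r) = (T.e1.symm r : C.R12 A) := by
  rw [RingEquiv.symm_apply_eq, ← T.res1, RingEquiv.apply_symm_apply]
  rfl

theorem res2_eq (r : Γ(X, T.V2)) :
    T.e.symm (resR (inf_le_right : T.V1 ⊓ T.V2 ≤ T.V2) r) = (T.e2.symm r : C.R12 A) := by
  rw [RingEquiv.symm_apply_eq, ← T.res2, RingEquiv.apply_symm_apply]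
  rfl

/-- Sheaves with isomorphic bundles of sections are isomorphic. -/
theorem nonempty_iso_of_glued_iso {M N : X.Modules} (hM : Scheme.Modules.IsInvertible M)
    (hN : Scheme.Modules.IsInvertible N)
    (h : Nonempty (Glued.Iso (ofSections T M hM) (ofSections T N hN))) :
    Nonempty (M ≅ N) := by
  obtain ⟨α⟩ := h
  let a : Γ(M, T.V1 ⊓ T.V2) ≃+ Γ(N, T.V1 ⊓ T.V2) := α.equiv.toAddEquiv
  have ha : ∀ (r : Γ(X, T.V1 ⊓ T.V2)) z, a (r • z) = r • a z := fun r z => by
    obtain ⟨r, rfl⟩ := T.e.surjective r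
    exact α.equiv.map_smul r z
  have key : ∀ {U : X.Opens} (hle : T.V1 ⊓ T.V2 ≤ U),
      Function.Injective (res M hle) → Function.Injective (res N hle) →
      (∀ z, a z ∈ Set.range (res N hle) ↔ z ∈ Set.range (res M hle)) →
      ∃ e : Γ(M, U) ≃ₗ[Γ(X, U)] Γ(N, U), ∀ x, res N hle (e x) = a (res M hle x) := by
    intro U hle iM iN hmem
    choose f hf using fun x => (hmem (res M hle x)).2 ⟨x, rfl⟩
    let f' : Γ(M, U) →ₗ[Γ(X, U)] Γ(N, U) :=
      { toFun := f
        map_add' := fun x y => iN (by simp only [map_add, hf])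
        map_smul' := fun r x => iN (by simp only [res_smul, hf, ha, RingHom.id_apply]) }
    refine ⟨LinearEquiv.ofBijective f' ⟨fun x y hxy => iM (a.injective ?_), fun y => ?_⟩, hf⟩
    · rw [← hf x, ← hf y]
      exact congrArg (res N hle) hxy
    · obtain ⟨x, hx⟩ := (hmem (a.symm (res N hle y))).1 ⟨y, (a.apply_symm_apply _).symm⟩
      refine ⟨x, iN ?_⟩
      change res N hle (f x) = res N hle y
      rw [hf, hx, a.apply_symm_apply]
  obtain ⟨e1, he1⟩ := key inf_le_left (res1M_injective T M hM) (res1M_injective T N hN) α.mem1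
  obtain ⟨e2, he2⟩ := key inf_le_right (res2M_injective T M hM) (res2M_injective T N hN) α.mem2
  exact nonempty_iso_of_two_affines T.isAffine1 T.isAffine2 (isAffine12 T) inf_le_left
    inf_le_right le_rfl T.sup_eq _ _ T.basic1.symm T.basic2.symm hM hN e1 e2
    { toFun := a, map_add' := map_add a, map_smul' := ha } he1 he2

/-- Every glued bundle is the bundle of sections of an invertible sheaf. -/
theorem exists_invertible_ofSections_iso (G : Glued C A) :
    ∃ (M : X.Modules) (hM : Scheme.Modules.IsInvertible M),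
      Nonempty (Glued.Iso (ofSections T M hM) G) := by
  let N1 : ModuleCat.{u} Γ(X, T.V1) :=
    (ModuleCat.restrictScalars T.e1.symm.toRingHom).obj (ModuleCat.of (C.R1 A) G.M1)
  let N2 : ModuleCat.{u} Γ(X, T.V2) :=
    (ModuleCat.restrictScalars T.e2.symm.toRingHom).obj (ModuleCat.of (C.R2 A) G.M2)
  let N12 : ModuleCat.{u} Γ(X, T.V1 ⊓ T.V2) :=
    (ModuleCat.restrictScalars T.e.symm.toRingHom).obj (ModuleCat.of (C.R12 A) G.carrier)
  have : Module.Invertible Γ(X, T.V1) N1 :=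
    moduleInvertible_of_ringEquiv (S := C.R1 A) (N := G.M1) T.e1.symm (AddEquiv.refl _)
      fun _ _ => rfl
  have : Module.Invertible Γ(X, T.V2) N2 :=
    moduleInvertible_of_ringEquiv (S := C.R2 A) (N := G.M2) T.e2.symm (AddEquiv.refl _)
      fun _ _ => rfl
  have : Module.Invertible Γ(X, T.V1 ⊓ T.V2) N12 :=
    moduleInvertible_of_ringEquiv (S := C.R12 A) (N := G.carrier) T.e.symm (AddEquiv.refl _)
      fun _ _ => rfl
  let ρ1 : N1 →+ N12 := G.M1.subtype.toAddMonoidHom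
  let ρ2 : N2 →+ N12 := G.M2.subtype.toAddMonoidHom
  have hρ1 : ∀ r n, ρ1 (r • n) = resR (inf_le_left : T.V1 ⊓ T.V2 ≤ T.V1) r • ρ1 n := fun r n =>
    show (T.e1.symm r : C.R12 A) • (show G.carrier from ρ1 n) = T.e.symm _ • (show G.carrier from ρ1 n)
    by rw [res1_eq]
  have hρ2 : ∀ r n, ρ2 (r • n) = resR (inf_le_right : T.V1 ⊓ T.V2 ≤ T.V2) r • ρ2 n := fun r n =>
    show (T.e2.symm r : C.R12 A) • (show G.carrier from ρ2 n) = T.e.symm _ • (show G.carrier from ρ2 n)
    by rw [res2_eq]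
  have hs1 : ∀ y, ∃ (n : ℕ) (t : N1), ρ1 t =
      resR (inf_le_left : T.V1 ⊓ T.V2 ≤ T.V1) (T.e1 ⟨C.xA A, C.xA_mem⟩ ^ n) • y := fun y => by
    obtain ⟨n, hn⟩ := G.loc1 y
    refine ⟨n, ⟨_, hn⟩, ?_⟩
    change C.xA A ^ n • (show G.carrier from y) = T.e.symm _ • (show G.carrier from y)
    rw [res1_eq, map_pow, RingEquiv.symm_apply_apply]
    rfl
  have hs2 : ∀ y, ∃ (n : ℕ) (t : N2), ρ2 t =
      resR (inf_le_right : T.V1 ⊓ T.V2 ≤ T.V2) (T.e2 ⟨C.yA A, C.yA_mem⟩ ^ n) • y := fun y => by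
    obtain ⟨n, hn⟩ := G.loc2 y
    refine ⟨n, ⟨_, hn⟩, ?_⟩
    change C.yA A ^ n • (show G.carrier from y) = T.e.symm _ • (show G.carrier from y)
    rw [res2_eq, map_pow, RingEquiv.symm_apply_apply]
    rfl
  have hi1 : ∀ t, ρ1 t = 0 → ∃ n : ℕ, T.e1 ⟨C.xA A, C.xA_mem⟩ ^ n • t = 0 := fun t ht =>
    ⟨0, by rw [pow_zero, one_smul]; exact Subtype.ext ht⟩
  have hi2 : ∀ t, ρ2 t = 0 → ∃ n : ℕ, T.e2 ⟨C.yA A, C.yA_mem⟩ ^ n • t = 0 := fun t ht =>
    ⟨0, by rw [pow_zero, one_smul]; exact Subtype.ext ht⟩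
  obtain ⟨L, e1, e2, e12, hL, hc1, hc2⟩ :=
    exists_invertible_of_two_affines inf_le_left inf_le_right le_rfl T.sup_eq _ _ T.basic1.symm
      T.basic2.symm N1 N2 N12 T.isAffine1 T.isAffine2 (isAffine12 T) ρ1 hρ1 hs1 hi1 ρ2 hρ2 hs2 hi2
  refine ⟨L, hL, ⟨⟨
    { toFun := e12
      map_add' := map_add e12
      map_smul' := ?_
      invFun := e12.symm
      left_inv := e12.left_inv
      right_inv := e12.right_inv }, ?_, ?_⟩⟩⟩
  · intro r z
    refine (e12.map_smul (T.e r) (show Γ(L, T.V1 ⊓ T.V2) from z)).trans ?_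
    change T.e.symm (T.e r) • (show G.carrier from e12 z) = r • (show G.carrier from e12 z)
    rw [RingEquiv.symm_apply_apply]
  · intro z
    refine ⟨fun hz => ?_, ?_⟩
    · refine ⟨e1.symm ⟨_, hz⟩, e12.injective ?_⟩
      exact (hc1 _).symm.trans (congrArg ρ1 (e1.apply_symm_apply _))
    · rintro ⟨x, rfl⟩
      exact (hc1 x) ▸ (e1 x : G.M1).2
  · intro z
    refine ⟨fun hz => ?_, ?_⟩
    · refine ⟨e2.symm ⟨_, hz⟩, e12.injective ?_⟩
      exact (hc2 _).symm.trans (congrArg ρ2 (e2.apply_symm_apply _))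
    · rintro ⟨x, rfl⟩
      exact (hc2 x) ▸ (e2 x : G.M2).2

end Fermat.Agent.Row24.Dict
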