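import Mathlib
import Fermat.Agent.Row24.Dict.BaseChange

/-!
# Rigidified sheaves correspond to rigid bundles of sections
-/

set_option autoImplicit false

universe u

open CategoryTheory CategoryTheory.Limits AlgebraicGeometry TopologicalSpace

noncomputable section

namespace Fermat.Agent.Row24.Dict

open Chart

variable {k : Type u} [Field k] {C : CurveRings k} {A : Type u} [CommRing A] [Algebra k A]

/-- Shortcut for the scalars acting on a lattice. -/
local instance (G : Glued C A) : SMul (C.R2 A) G.M2 := G.M2.smul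

/-- Shortcut for the module structure of a lattice. -/
local instance (G : Glued C A) : Module (C.R2 A) G.M2 := G.M2.module

/-- A bundle with an augmented functional hitting `1` is rigid. -/
theorem rigid_of_functional (G : Glued C A) (θ : G.M2 →+ A)
    (hθ : ∀ (r : C.R2 A) (m : G.M2), θ (r • m) = C.augA A r * θ m) (e : G.M2) (he : θ e = 1) :
    G.Rigid := by
  rw [Glued.rigid_iff]
  obtain ⟨n, φ, v, hv, hφ, h1⟩ := G.isLattice2
  have hψ : ∀ m ∈ G.M2, (∑ i, θ ⟨v i, hv i⟩ • φ i) m ∈ C.R2 A := by
    intro m hm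
    rw [LinearMap.sum_apply]
    exact sum_mem fun i _ => Subalgebra.smul_mem _ (hφ i m hm) _
  refine ⟨e, e.2, _, hψ, hψ _ e.2, ?_⟩
  have hsum : e = ∑ i, (⟨φ i e, hφ i _ e.2⟩ : C.R2 A) • (⟨v i, hv i⟩ : G.M2) := by
    apply Subtype.ext
    rw [AddSubmonoidClass.coe_finsetSum]
    exact (sum_smul_eq φ v h1 (e : G.carrier)).symm
  have hval : (⟨(∑ i, θ ⟨v i, hv i⟩ • φ i) (e : G.carrier), hψ _ e.2⟩ : C.R2 A) =
      ∑ i, algebraMap A (C.R2 A) (θ ⟨v i, hv i⟩) * ⟨φ i e, hφ i _ e.2⟩ := by
    apply Subtype.ext
    simp [Algebra.smul_def]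
  rw [hval, map_sum]
  simp only [map_mul, AlgHom.commutes]
  rw [← he]
  conv_rhs => rw [hsum, map_sum]
  refine Finset.sum_congr rfl fun i _ => ?_
  rw [hθ]
  simp [mul_comm]

/-- An element of `A` as a function on `Spec A`. -/
def cc (a : A) : CommRingCat.of A := a

variable {X : Scheme.{u}} (T : TwoCharts C A X) (s : Spec (CommRingCat.of A) ⟶ X)
  (hs : (⊤ : (Spec (CommRingCat.of A)).Opens) ≤ s ⁻¹ᵁ T.V2)
  (haug : ∀ r : C.R2 A, s.appLE T.V2 ⊤ hs (T.e2 r) =
    (Scheme.ΓSpecIso (CommRingCat.of A)).inv (C.augA A r))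
  (M : X.Modules) (hM : Scheme.Modules.IsInvertible M)

include haug in
theorem pullSection_e2_smul (r : C.R2 A) (a : Γ(M, T.V2)) :
    pullSection s M hs (T.e2 r • a) =
      cc (C.augA A r) • (show ↑(moduleSpecΓFunctor.obj ((Scheme.Modules.pullback s).obj M) :
        ModuleCat (CommRingCat.of A)) from pullSection s M hs a) := by
  refine (pullSection_smul s M hs (T.e2 r) a).trans ?_
  rw [haug]
  change _ = ((Spec (CommRingCat.of A)).presheaf.map (𝟙 _)
    ((Scheme.ΓSpecIso (CommRingCat.of A)).inv (cc (C.augA A r)))) • pullSection s M hs a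
  rw [CategoryTheory.Functor.map_id]
  rfl

include haug in
/-- A trivialised inverse image along the base point makes the bundle of sections rigid. -/
theorem rigid_ofSections
    (h : Nonempty ((Scheme.Modules.pullback s).obj M ≅
      SheafOfModules.unit (Spec (CommRingCat.of A)).ringCatSheaf)) :
    (ofSections T M hM).Rigid := by
  obtain ⟨α⟩ := h
  set F := (Scheme.Modules.pullback s).obj M
  set G := ofSections T M hM
  let β : (moduleSpecΓFunctor.obj ((Scheme.Modules.pullback s).obj M) :
      ModuleCat (CommRingCat.of A)) ≃ₗ[CommRingCat.of A] CommRingCat.of A :=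
    (moduleSpecΓFunctor.mapIso α ≪≫ gammaUnitIso).toLinearEquiv
  have hm : ∀ m : G.M2, ∃ a, res2M T M a = (m : G.carrier) := fun m => m.2
  choose q hq using hm
  have hq' : ∀ a (m : G.M2), res2M T M a = (m : G.carrier) → q m = a := fun a m ha =>
    res2M_injective T M hM ((hq m).trans ha.symm)
  let θ : G.M2 →+ A :=
    AddMonoidHom.mk' (fun m => β (pullSection s M hs (q m))) fun m m' => by
      rw [hq' (q m + q m') (m + m') (by rw [map_add, hq, hq]; rfl), map_add, ← map_add β]
      rfl
  have hθ : ∀ (r : C.R2 A) (m : G.M2), θ (r • m) = C.augA A r * θ m := by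
    intro r m
    show β (pullSection s M hs (q (r • m))) = _
    rw [hq' (T.e2 r • q m) (r • m) (by rw [res2M_smul, hq]; rfl),
      pullSection_e2_smul T s hs haug M r (q m)]
    exact map_smul β (cc (C.augA A r)) _
  let I : Ideal A :=
    { carrier := Set.range θ
      add_mem' := by rintro _ _ ⟨a, rfl⟩ ⟨b, rfl⟩; exact ⟨a + b, map_add _ _ _⟩
      zero_mem' := ⟨0, map_zero _⟩
      smul_mem' := by
        rintro c _ ⟨a, rfl⟩
        refine ⟨algebraMap A (C.R2 A) c • a, ?_⟩
        rw [hθ, AlgHom.commutes]
        rfl }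
  have h1 : (1 : A) ∈ I := by
    have hgen := span_range_pullSection s M T.isAffine2 (isAffineOpen_top _) hM hs
    let y : (moduleSpecΓFunctor.obj F : ModuleCat (CommRingCat.of A)) := β.symm 1
    have hy : (show Γ(F, ⊤) from y) ∈
        Submodule.span Γ(Spec (CommRingCat.of A), ⊤) (Set.range (pullSection s M hs)) := by
      rw [hgen]; exact Submodule.mem_top
    suffices ∀ z : Γ(F, ⊤), z ∈
        Submodule.span Γ(Spec (CommRingCat.of A), ⊤) (Set.range (pullSection s M hs)) →
        β (show (moduleSpecΓFunctor.obj F : ModuleCat (CommRingCat.of A)) from z) ∈ I by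
      simpa [y] using this _ hy
    intro z hz
    induction hz using Submodule.span_induction with
    | mem x hx =>
      obtain ⟨a, rfl⟩ := hx
      have hmem : res2M T M a ∈ G.M2 := ⟨a, rfl⟩
      refine ⟨⟨res2M T M a, hmem⟩, ?_⟩
      simp only [θ, AddMonoidHom.mk'_apply]
      exact congrArg (fun b => β (pullSection s M hs b)) (hq' a ⟨res2M T M a, hmem⟩ rfl)
    | zero => exact (map_zero β).symm ▸ I.zero_mem
    | add x y _ _ hx hy => exact (map_add β _ _).symm ▸ I.add_mem hx hy
    | smul r x _ hx =>
      have hr : r • x = ((Scheme.ΓSpecIso (CommRingCat.of A)).hom r) •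
          (show (moduleSpecΓFunctor.obj F : ModuleCat (CommRingCat.of A)) from x) := by
        show r • x = (Spec (CommRingCat.of A)).presheaf.map (𝟙 _)
          ((Scheme.ΓSpecIso (CommRingCat.of A)).inv ((Scheme.ΓSpecIso (CommRingCat.of A)).hom r)) • x
        rw [CategoryTheory.Functor.map_id, Iso.hom_inv_id_apply]
        rfl
      rw [hr]
      exact (map_smul β _ _).symm ▸ I.mul_mem_left _ hx
  obtain ⟨e, he⟩ := h1
  exact rigid_of_functional G θ hθ e he

include haug in
/-- A rigid bundle of sections comes from a sheaf trivial along the base point. -/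
theorem nonempty_pullback_iso_of_rigid (h : (ofSections T M hM).Rigid) :
    Nonempty ((Scheme.Modules.pullback s).obj M ≅
      SheafOfModules.unit (Spec (CommRingCat.of A)).ringCatSheaf) := by
  set F := (Scheme.Modules.pullback s).obj M with hF
  set P := (moduleSpecΓFunctor.obj F : ModuleCat (CommRingCat.of A))
  have := moduleInvertible_gamma (hM.pullback s)
  rw [nonempty_iso_unit_iff_free (hM.pullback s)]
  obtain ⟨e, ⟨a₀, ha₀⟩, hu⟩ := h
  let p₀ : P := pullSection s M hs a₀
  -- elements vanishing at the point map to zero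
  have hM2O : ∀ m, m ∈ (ofSections T M hM).M2O →
      ∀ a, res2M T M a = m → (pullSection s M hs a : P) = 0 := by
    intro m hm
    induction hm using Submodule.smul_induction_on' with
    | smul r hr n hn =>
      intro a ha
      obtain ⟨b, rfl⟩ := hn
      have hab : a = T.e2 r • b := res2M_injective T M hM (ha.trans (res2M_smul T M r b).symm)
      rw [hab, pullSection_e2_smul T s hs haug M r b, RingHom.mem_ker.1 hr]
      exact zero_smul (CommRingCat.of A) (show P from pullSection s M hs b)
    | add x hx y hy ihx ihy =>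
      intro a ha
      obtain ⟨bx, hbx⟩ := (ofSections T M hM).M2O_le hx
      obtain ⟨by', hby⟩ := (ofSections T M hM).M2O_le hy
      have hab : a = bx + by' :=
        res2M_injective T M hM (ha.trans (by rw [map_add, hbx, hby]))
      rw [hab, map_add]
      exact (congrArg₂ (fun u v : P => u + v) (ihx bx hbx) (ihy by' hby)).trans (add_zero _)
  have hall : ∀ a : Γ(M, T.V2), ∃ c : CommRingCat.of A,
      (pullSection s M hs a : P) = c • p₀ := by
    intro a
    obtain ⟨c, hc, -⟩ := hu (res2M T M a) ⟨a, rfl⟩
    refine ⟨c, ?_⟩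
    have hres : res2M T M (a - T.e2 (algebraMap A (C.R2 A) c) • a₀) =
        (res2M T M a : (ofSections T M hM).carrier) - c • e := by
      rw [map_sub, res2M_smul, ← ha₀]
      rfl
    have h0 := hM2O _ hc _ hres
    rw [map_sub, pullSection_e2_smul T s hs haug M, AlgHom.commutes] at h0
    exact sub_eq_zero.1 h0
  have hsurj : Function.Surjective (LinearMap.toSpanSingleton (CommRingCat.of A) P p₀) := by
    intro z
    have hgen := span_range_pullSection s M T.isAffine2 (isAffineOpen_top _) hM hs
    have hz : (show Γ(F, ⊤) from z) ∈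
        Submodule.span Γ(Spec (CommRingCat.of A), ⊤) (Set.range (pullSection s M hs)) := by
      rw [hgen]; exact Submodule.mem_top
    change ∃ c : CommRingCat.of A, c • p₀ = z
    suffices ∀ w : Γ(F, ⊤), w ∈
        Submodule.span Γ(Spec (CommRingCat.of A), ⊤) (Set.range (pullSection s M hs)) →
        ∃ c : CommRingCat.of A, c • p₀ = (show P from w) from this _ hz
    intro w hw
    induction hw using Submodule.span_induction with
    | mem x hx =>
      obtain ⟨a, rfl⟩ := hx
      obtain ⟨c, hc⟩ := hall a
      exact ⟨c, hc.symm⟩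
    | zero => exact ⟨0, zero_smul _ _⟩
    | add x y _ _ hx hy =>
      obtain ⟨cx, hcx⟩ := hx
      obtain ⟨cy, hcy⟩ := hy
      exact ⟨cx + cy, (add_smul cx cy p₀).trans (by rw [hcx, hcy]; rfl)⟩
    | smul r x _ hx =>
      obtain ⟨cx, hcx⟩ := hx
      refine ⟨(Scheme.ΓSpecIso (CommRingCat.of A)).hom r * cx, ?_⟩
      rw [mul_smul, hcx]
      show (Spec (CommRingCat.of A)).presheaf.map (𝟙 _)
          ((Scheme.ΓSpecIso (CommRingCat.of A)).inv ((Scheme.ΓSpecIso (CommRingCat.of A)).hom r)) • x =
        r • x
      rw [CategoryTheory.Functor.map_id, Iso.hom_inv_id_apply]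
      rfl
  exact Module.Free.of_equiv
    (LinearEquiv.ofBijective _ (Module.Invertible.bijective_of_surjective hsurj))

end Fermat.Agent.Row24.Dict

end
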