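import Mathlib
import Fermat.Agent.Row24.Dict.BaseChange
import Fermat.Agent.Row24.Dict.Rigid
import Fermat.Agent.Row24.Dict.CurveCharts
import Fermat.Agent.Row24.Dict.Interface
import Fermat.Agent.Row24.Dict.Real

/-!
# The dictionary of a curve

For a curve with a based chart model, bundles of sections over the two charts identify rigidified
line bundles on `C × Spec A` with rigid glued modules (`Dictionary`).
-/

set_option autoImplicit false

universe u

open CategoryTheory CategoryTheory.Limits AlgebraicGeometry TopologicalSpace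
open NeronModelInfra AlgebraicGeometry.RelPicard

noncomputable section

namespace Fermat.Agent.Row24.Dict

open Chart

variable {k : Type u} [Field k] {X₀ : Scheme.{u}} {c : X₀ ⟶ Spec (CommRingCat.of k)}
  {R : CurveRings k} (m : ChartModel c R) {ε : SchemeHomOver (𝟙 (Spec (CommRingCat.of k))) c}

/-- Bundles of sections over the charts of a model, for a rigidified line bundle. -/
@[reducible] def gluedOf (A : Type u) [CommRing A] [Algebra k A]
    (M : RigidifiedLineBundle c ε (affStr k A)) : Glued R A :=
  ofSections (m.twoCharts A) M.L M.isInvertible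

variable {m} (hb : m.Based ε)

include hb in
theorem rigid_gluedOf (A : Type u) [CommRing A] [Algebra k A]
    (M : RigidifiedLineBundle c ε (affStr k A)) : (gluedOf m A M).Rigid :=
  rigid_ofSections (m.twoCharts A) (rigSection c (affStr k A) ε)
    (ChartModel.rigSection_preimage_V2 hb).ge
    (ChartModel.rigSection_e2 hb _) M.L M.isInvertible M.rigidified

/-- The dictionary, given that bundles of sections reflect isomorphisms and exhaust glued
modules. -/
def dictionaryOf
    (hiso : ∀ (A : Type u) [CommRing A] [Algebra k A] (L L' : (pullback c (affStr k A)).Modules)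
      (hL : Scheme.Modules.IsInvertible L) (hL' : Scheme.Modules.IsInvertible L'),
      Nonempty (Glued.Iso (ofSections (m.twoCharts A) L hL) (ofSections (m.twoCharts A) L' hL')) →
        Nonempty (L ≅ L'))
    (hreal : ∀ (A : Type u) [CommRing A] [Algebra k A] (G : Glued R A),
      ∃ (L : (pullback c (affStr k A)).Modules) (hL : Scheme.Modules.IsInvertible L),
        Nonempty (Glued.Iso (ofSections (m.twoCharts A) L hL) G)) :
    Dictionary c ε R where
  glued A _ _ M := gluedOf m A M
  rigid A _ _ M := rigid_gluedOf hb A M
  iso_iff A _ _ M M' := ⟨hiso A M.L M'.L M.isInvertible M'.isInvertible,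
    fun ⟨α⟩ => ⟨isoOfIso _ α _ _⟩⟩
  exists_bundle A _ _ N hN := by
    obtain ⟨L, hL, ⟨e⟩⟩ := hreal A N
    have hR : (ofSections (m.twoCharts A) L hL).Rigid := by
      obtain ⟨e₀, he₀, φ, hφ, h, h1⟩ := (Glued.rigid_iff N).1 hN
      refine (Glued.rigid_iff _).2 ⟨e.equiv.symm e₀, (e.symm.mem2 e₀).2 he₀,
        φ.comp e.equiv.toLinearMap, fun x hx => hφ _ ((e.mem2 x).2 hx), ?_, ?_⟩
      · simpa using h
      · simpa using h1
    exact ⟨⟨L, hL, nonempty_pullback_iso_of_rigid (m.twoCharts A) (rigSection c (affStr k A) ε)
      (ChartModel.rigSection_preimage_V2 hb).ge (ChartModel.rigSection_e2 hb _) L hL hR⟩, ⟨e⟩⟩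
  nonempty_hom A _ _ A' _ _ φ M := ⟨pullHom _ (m.compat_baseChange φ) M.isInvertible⟩
  unit_iso A _ _ := ⟨unitIso (m.twoCharts A)⟩

/-- **The dictionary** between rigidified line bundles on `C × Spec A` and rigid glued
modules. -/
def dictionary : Dictionary c ε R :=
  dictionaryOf hb
    (fun A _ _ _ _ hL hL' h => nonempty_iso_of_glued_iso (m.twoCharts A) hL hL' h)
    (fun A _ _ G => exists_invertible_ofSections_iso (m.twoCharts A) G)

end Fermat.Agent.Row24.Dict

end
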